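import Fermat.Agent.Jacobian.Cocycle.Modules

/-!
# The Picard group of a scheme by cocycles

`PicC X` is the group of cocycles modulo coboundaries; it is in bijection with the isomorphism
classes of invertible modules, compatibly with pullback.
-/

set_option autoImplicit false

noncomputable section

universe u

open CategoryTheory TopologicalSpace AlgebraicGeometry Opposite

open scoped AlgebraicGeometry

namespace FermatAgent.Jacobian

variable {X Y Z : Scheme.{u}}

namespace Cocycle

/-- Cocycles with isomorphic modules. -/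
instance instSetoid (X : Scheme.{u}) : Setoid (Cocycle X) where
  r c c' := Nonempty (c.toModules ≅ c'.toModules)
  iseqv := ⟨fun _ => ⟨Iso.refl _⟩, fun ⟨e⟩ => ⟨e.symm⟩, fun ⟨e⟩ ⟨e'⟩ => ⟨e ≪≫ e'⟩⟩

theorem equiv_iff {c c' : Cocycle X} : c ≈ c' ↔ Nonempty (Coboundary c c') :=
  nonempty_iso_iff

theorem equiv_of_agree {c c' : Cocycle X} (hU : ∀ x, c.U x ≤ c'.U x)
    (h : ∀ (x y : X) (W : X.Opens) (hx : W ≤ c.U x) (hy : W ≤ c.U y),
      c.val x y hx hy = c'.val x y (hx.trans (hU x)) (hy.trans (hU y))) : c ≈ c' :=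
  equiv_iff.mpr ⟨.ofAgree hU h⟩

theorem mul_congr {a a' b b' : Cocycle X} (ha : a ≈ a') (hb : b ≈ b') : a * b ≈ a' * b' := by
  obtain ⟨s⟩ := equiv_iff.mp ha
  obtain ⟨t⟩ := equiv_iff.mp hb
  exact equiv_iff.mpr ⟨s.mul t⟩

theorem pull_congr (f : X ⟶ Y) {a a' : Cocycle Y} (ha : a ≈ a') : a.pull f ≈ a'.pull f := by
  obtain ⟨s⟩ := equiv_iff.mp ha
  exact equiv_iff.mpr ⟨s.pull f⟩

theorem inv_congr {a a' : Cocycle X} (ha : a ≈ a') : a⁻¹ ≈ a'⁻¹ := by
  obtain ⟨s⟩ := equiv_iff.mp ha
  refine equiv_iff.mpr ⟨⟨fun x z => ↑(s.isUnit x z).unit⁻¹,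
    fun x z => Units.isUnit _, fun x y z W hx hy hz => ?_, fun x y z W hx hy hz => ?_⟩⟩
  · have h := s.left x y z W hx hy hz
    have hy1 := congrArg (ores (le_inf hy hz)) (IsUnit.mul_val_inv (s.isUnit y z))
    have hx1 := congrArg (ores (le_inf hx hz)) (IsUnit.val_inv_mul (s.isUnit x z))
    simp only [ores_mul, ores_one] at hy1 hx1
    have hc := a.val_mul_symm y x hy hx
    rw [inv_val]
    calc _ = ores (le_inf hx hz) (↑(s.isUnit x z).unit⁻¹) * ores (le_inf hx hz) (s.h x z) *
          (a.val y x hy hx * ores (le_inf hy hz) (↑(s.isUnit y z).unit⁻¹)) := by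
            rw [hx1, one_mul]
      _ = _ := by
        rw [← h]
        linear_combination (ores (le_inf hx hz) (↑(s.isUnit x z).unit⁻¹) *
          ores (le_inf hy hz) (s.h y z) * ores (le_inf hy hz) (↑(s.isUnit y z).unit⁻¹)) * hc +
          ores (le_inf hx hz) (↑(s.isUnit x z).unit⁻¹) * hy1
  · have h := s.right x y z W hx hy hz
    have hy1 := congrArg (ores (le_inf hx hy)) (IsUnit.mul_val_inv (s.isUnit x y))
    have hx1 := congrArg (ores (le_inf hx hz)) (IsUnit.val_inv_mul (s.isUnit x z))
    simp only [ores_mul, ores_one] at hy1 hx1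
    have hc := a'.val_mul_symm y z hy hz
    rw [inv_val]
    calc _ = ores (le_inf hx hz) (↑(s.isUnit x z).unit⁻¹) * ores (le_inf hx hz) (s.h x z) *
          (ores (le_inf hx hy) (↑(s.isUnit x y).unit⁻¹) * a'.val z y hz hy) := by
            rw [hx1, one_mul]
      _ = _ := by
        rw [← h]
        linear_combination (ores (le_inf hx hz) (↑(s.isUnit x z).unit⁻¹) *
          ores (le_inf hx hy) (s.h x y) * ores (le_inf hx hy) (↑(s.isUnit x y).unit⁻¹)) * hc +
          ores (le_inf hx hz) (↑(s.isUnit x z).unit⁻¹) * hy1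

end Cocycle

/-- The Picard group by cocycles. -/
def PicC (X : Scheme.{u}) : Type u := Quotient (Cocycle.instSetoid X)

namespace PicC

/-- The class of a cocycle. -/
def mk (c : Cocycle X) : PicC X := Quotient.mk _ c

theorem mk_eq_mk {c c' : Cocycle X} : mk c = mk c' ↔ Nonempty (c.toModules ≅ c'.toModules) :=
  Quotient.eq

theorem mk_surjective : Function.Surjective (mk (X := X)) := Quotient.mk_surjective

instance : One (PicC X) := ⟨mk 1⟩

instance : Mul (PicC X) := ⟨Quotient.map₂ (· * ·) fun _ _ h _ _ h' => Cocycle.mul_congr h h'⟩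

instance : Inv (PicC X) := ⟨Quotient.map (·⁻¹) fun _ _ h => Cocycle.inv_congr h⟩

theorem mk_mul (a b : Cocycle X) : mk (a * b) = mk a * mk b := rfl

theorem mk_inv (a : Cocycle X) : mk a⁻¹ = (mk a)⁻¹ := rfl

theorem mk_one : mk (1 : Cocycle X) = 1 := rfl

instance : CommGroup (PicC X) where
  mul_assoc a b c := by
    induction a using Quotient.ind
    induction b using Quotient.ind
    induction c using Quotient.ind
    refine Quotient.sound (Cocycle.equiv_of_agree (fun x => (inf_assoc _ _ _).le) ?_)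
    intro x y W hx hy
    simp [Cocycle.mul_val, mul_assoc]
  one_mul a := by
    induction a using Quotient.ind
    refine Quotient.sound (Cocycle.equiv_of_agree (fun x => inf_le_right) ?_)
    intro x y W hx hy
    simp [Cocycle.mul_val]
  mul_one a := by
    induction a using Quotient.ind
    refine Quotient.sound (Cocycle.equiv_of_agree (fun x => inf_le_left) ?_)
    intro x y W hx hy
    simp [Cocycle.mul_val]
  inv_mul_cancel a := by
    induction a using Quotient.ind with
    | _ c =>
      refine Quotient.sound (Cocycle.equiv_of_agree (fun x => le_top) ?_)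
      intro x y W hx hy
      simp [Cocycle.mul_val, Cocycle.inv_val, c.val_mul_symm]
  mul_comm a b := by
    induction a using Quotient.ind
    induction b using Quotient.ind
    refine Quotient.sound (Cocycle.equiv_of_agree (fun x => (inf_comm _ _).le) ?_)
    intro x y W hx hy
    simp [Cocycle.mul_val, mul_comm]

/-- Pullback of classes. -/
def pull (f : X ⟶ Y) : PicC Y →* PicC X where
  toFun := Quotient.map (Cocycle.pull f) fun _ _ h => Cocycle.pull_congr f h
  map_one' := by
    refine Quotient.sound (Cocycle.equiv_of_agree (fun x => le_top) ?_)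
    intro x y W hx hy
    rw [Cocycle.pull_val, Cocycle.one_val]
    exact Cocycle.opull_one f _
  map_mul' a b := by
    induction a using Quotient.ind with
    | _ a =>
      induction b using Quotient.ind with
      | _ b =>
        refine Quotient.sound (Cocycle.equiv_of_agree (c := (a * b).pull f)
          (c' := a.pull f * b.pull f) (fun x => le_rfl) ?_)
        intro x y W hx hy
        rw [Cocycle.pull_val, Cocycle.mul_val, Cocycle.pull_val, Cocycle.pull_val]
        change Cocycle.opull f _ (a.val (f x) (f y) _ _ * b.val (f x) (f y) _ _) = _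
        exact (Cocycle.opull_mul f _ _ _).trans
          (congrArg₂ (· * ·) (Cocycle.opull_ores f _ _ _) (Cocycle.opull_ores f _ _ _))

theorem pull_mk (f : X ⟶ Y) (c : Cocycle Y) : pull f (mk c) = mk (c.pull f) := rfl

/-- The class of an invertible module. -/
def ofModule (M : X.Modules) (hM : Scheme.Modules.IsInvertible M) : PicC X :=
  mk (exists_cocycle_iso hM).choose

theorem ofModule_eq_mk_iff {M : X.Modules} {hM : Scheme.Modules.IsInvertible M} {c : Cocycle X} :
    ofModule M hM = mk c ↔ Nonempty (M ≅ c.toModules) := by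
  rw [ofModule, mk_eq_mk]
  exact ⟨fun ⟨e⟩ => ⟨(exists_cocycle_iso hM).choose_spec.some ≪≫ e⟩,
    fun ⟨e⟩ => ⟨(exists_cocycle_iso hM).choose_spec.some.symm ≪≫ e⟩⟩

theorem ofModule_toModules (c : Cocycle X) :
    ofModule c.toModules c.isInvertible_toModules = mk c :=
  ofModule_eq_mk_iff.mpr ⟨Iso.refl _⟩

theorem ofModule_eq_iff {M N : X.Modules} {hM : Scheme.Modules.IsInvertible M}
    {hN : Scheme.Modules.IsInvertible N} :
    ofModule M hM = ofModule N hN ↔ Nonempty (M ≅ N) := by
  obtain ⟨d, ⟨e⟩⟩ := exists_cocycle_iso hN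
  rw [ofModule_eq_mk_iff.mpr ⟨e⟩, ofModule_eq_mk_iff]
  exact ⟨fun ⟨e'⟩ => ⟨e' ≪≫ e.symm⟩, fun ⟨e'⟩ => ⟨e' ≪≫ e⟩⟩

theorem pull_ofModule (f : X ⟶ Y) {M : Y.Modules} (hM : Scheme.Modules.IsInvertible M) :
    pull f (ofModule M hM) = ofModule ((Scheme.Modules.pullback f).obj M) (hM.pullback f) := by
  obtain ⟨c, ⟨e⟩⟩ := exists_cocycle_iso hM
  rw [ofModule_eq_mk_iff.mpr ⟨e⟩, pull_mk]
  exact (ofModule_eq_mk_iff.mpr
    ⟨(Scheme.Modules.pullback f).mapIso e ≪≫ (Cocycle.nonempty_pullback_iso f c).some⟩).symm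

theorem pull_id (a : PicC X) : pull (𝟙 X) a = a := by
  obtain ⟨c, rfl⟩ := mk_surjective a
  rw [← ofModule_toModules, pull_ofModule, ofModule_eq_iff]
  exact ⟨(Scheme.Modules.pullbackId X).app _⟩

theorem pull_comp (f : X ⟶ Y) (g : Y ⟶ Z) (a : PicC Z) :
    pull (f ≫ g) a = pull f (pull g a) := by
  obtain ⟨c, rfl⟩ := mk_surjective a
  rw [← ofModule_toModules, pull_ofModule, pull_ofModule, pull_ofModule, ofModule_eq_iff]
  exact ⟨((Scheme.Modules.pullbackComp f g).app _).symm⟩

theorem ofModule_unit :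
    ofModule _ (Scheme.Modules.isInvertible_unit X) = 1 := by
  refine ofModule_eq_mk_iff.mpr ?_
  let F : Framing (modUnit X) :=
    { U := fun _ => ⊤
      mem := fun _ => trivial
      s := fun _ => (1 : Γ(X, ⊤))
      isFrame := fun _ V h => by
        change Function.Bijective fun r : Γ(X, V) => r * ores h (1 : Γ(X, ⊤))
        simp only [ores_one, mul_one]
        exact Function.bijective_id }
  obtain ⟨e⟩ := F.nonempty_iso_toCocycle
  refine ⟨e ≪≫ (Cocycle.Coboundary.nonempty_iso (Cocycle.Coboundary.ofAgree (c := F.toCocycle)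
    (fun x => le_top) fun x y W hx hy => ?_)).some⟩
  rw [Cocycle.one_val]
  have h : F.trans x y = 1 := IsFrame.coef_eq _ (by
    change (1 : Γ(X, ⊤ ⊓ ⊤)) * ores _ (1 : Γ(X, ⊤)) = ores _ (1 : Γ(X, ⊤))
    simp
    exact one_mul _)
  change ores _ (F.trans x y) = 1
  rw [h]
  exact ores_one _

end PicC

end FermatAgent.Jacobian
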