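import Fermat.Agent.Jacobian.Cocycle.Modules
import Mathlib.AlgebraicGeometry.Morphisms.QuasiSeparated

/-!
# Sections of a framed module over affine opens

Over an affine open a section vanishing on a basic open is killed by a power of the function, a
section on a basic open extends after multiplication by a power, and sections which are frames
near every point span all sections.
-/

set_option autoImplicit false

noncomputable section

universe u

open CategoryTheory TopologicalSpace AlgebraicGeometry Opposite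

open scoped AlgebraicGeometry

namespace FermatAgent.Jacobian

variable {X : Scheme.{u}} {M : X.Modules}

theorem ores_pow {U V : X.Opens} (h : V ≤ U) (r : Γ(X, U)) (n : ℕ) :
    ores h (r ^ n) = ores h r ^ n :=
  map_pow _ _ _

theorem basicOpen_ores {U V : X.Opens} (h : V ≤ U) (r : Γ(X, U)) :
    X.basicOpen (ores h r) = V ⊓ X.basicOpen r :=
  X.basicOpen_res r (homOfLE h).op

/-- A function vanishing on a basic open is killed by a power. -/
theorem exists_pow_mul_eq_zero {V : X.Opens} (hV : IsCompact (V : Set X)) (f x : Γ(X, V))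
    (H : ores (X.basicOpen_le f) x = 0) : ∃ n : ℕ, f ^ n * x = 0 :=
  exists_pow_mul_eq_zero_of_res_basicOpen_eq_zero_of_isCompact X hV x f H

namespace Framing

variable (F : Framing M) {W : X.Opens} (hW : IsAffineOpen W)
include F hW

/-- An affine open is covered by finitely many basic opens inside domains of frames. -/
theorem exists_finite_cover :
    ∃ (ι : Type u) (_ : Fintype ι) (g : ι → Γ(X, W)) (x : ι → X),
      (∀ i, X.basicOpen (g i) ≤ F.U (x i)) ∧ W ≤ ⨆ i, X.basicOpen (g i) := by
  have h : ∀ p : W, ∃ g : Γ(X, W), X.basicOpen g ≤ F.U p ∧ (p : X) ∈ X.basicOpen g :=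
    fun p => hW.exists_basicOpen_le ⟨p, F.mem p⟩ p.2
  choose g hg hp using h
  obtain ⟨s, hs⟩ := hW.isCompact.elim_finite_subcover (fun p : W => (X.basicOpen (g p) : Set X))
    (fun p => (X.basicOpen (g p)).2) fun p hpW => Set.mem_iUnion.mpr ⟨⟨p, hpW⟩, hp ⟨p, hpW⟩⟩
  refine ⟨s, inferInstance, fun i => g i, fun i => (i : W), fun i => hg i, fun p hpW => ?_⟩
  obtain ⟨i, hi, hpi⟩ := Set.mem_iUnion₂.mp (hs hpW)
  exact Opens.mem_iSup.mpr ⟨⟨i, hi⟩, hpi⟩

theorem exists_pow_smul_eq_zero (f : Γ(X, W)) (m : Γ(M, W))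
    (hm : mres M (X.basicOpen_le f) m = 0) : ∃ n : ℕ, f ^ n • m = 0 := by
  obtain ⟨ι, _, g, x, hg, hcov⟩ := F.exists_finite_cover hW
  have key : ∀ i, ∃ n : ℕ, ores (X.basicOpen_le (g i)) f ^ n •
      mres M (X.basicOpen_le (g i)) m = 0 := by
    intro i
    set V := X.basicOpen (g i)
    set a := (F.isFrame (x i)).coef (hg i) (mres M (X.basicOpen_le (g i)) m) with ha
    have hb : X.basicOpen (ores (X.basicOpen_le (g i)) f) ≤ X.basicOpen f := by
      rw [basicOpen_ores]
      exact inf_le_right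
    obtain ⟨n, hn⟩ := exists_pow_mul_eq_zero (hW.basicOpen (g i)).isCompact
      (ores (X.basicOpen_le (g i)) f) a (by
        rw [ha, ← IsFrame.coef_mres]
        refine IsFrame.coef_eq _ ?_
        rw [zero_smul, mres_mres, ← mres_mres M hb (X.basicOpen_le f), hm, mres_zero])
    refine ⟨n, ?_⟩
    rw [← (F.isFrame (x i)).coef_smul (hg i) (mres M (X.basicOpen_le (g i)) m), ← ha, ← mul_smul,
      hn, zero_smul]
  choose n hn using key
  refine ⟨Finset.univ.sup n, mres_ext M _ (fun i => X.basicOpen_le (g i)) hcov fun i => ?_⟩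
  obtain ⟨d, hd⟩ := Nat.exists_eq_add_of_le (Finset.le_sup (f := n) (Finset.mem_univ i))
  rw [hd, pow_add, mul_comm, mul_smul, mres_zero, mres_smul, mres_smul, ores_pow, ores_pow, hn,
    smul_zero]

theorem exists_pow_smul_extend (f : Γ(X, W)) (m : Γ(M, X.basicOpen f)) :
    ∃ (n : ℕ) (s : Γ(M, W)),
      mres M (X.basicOpen_le f) s = ores (X.basicOpen_le f) f ^ n • m := by
  obtain ⟨ι, _, g, x, hg, hcov⟩ := F.exists_finite_cover hW
  have key : ∀ i, ∃ (n : ℕ) (s : Γ(M, X.basicOpen (g i))),
      mres M (inf_le_left : X.basicOpen (g i) ⊓ X.basicOpen f ≤ _) s =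
        ores (inf_le_right.trans (X.basicOpen_le f) : X.basicOpen (g i) ⊓ X.basicOpen f ≤ W) f ^ n •
          mres M (inf_le_right : X.basicOpen (g i) ⊓ X.basicOpen f ≤ _) m := by
    intro i
    set f' := ores (X.basicOpen_le (g i)) f
    have hb : X.basicOpen f' = X.basicOpen (g i) ⊓ X.basicOpen f := basicOpen_ores _ _
    obtain ⟨n, y, hy⟩ := exists_eq_pow_mul_of_isAffineOpen X _ (hW.basicOpen (g i)) f'
      ((F.isFrame (x i)).coef ((X.basicOpen_le f').trans (hg i))
        (mres M (hb.le.trans inf_le_right) m))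
    change ores (X.basicOpen_le f') y = ores (X.basicOpen_le f') f' ^ n * _ at hy
    refine ⟨n, y • mres M (hg i) (F.s (x i)), ?_⟩
    have h1 : mres M (X.basicOpen_le f') (y • mres M (hg i) (F.s (x i))) =
        ores ((X.basicOpen_le f').trans (X.basicOpen_le (g i))) f ^ n •
          mres M (hb.le.trans inf_le_right) m := by
      rw [mres_smul, mres_mres, hy, mul_smul, IsFrame.coef_smul, ores_ores]
    have h2 := congrArg (mres M hb.ge) h1
    simpa [ores_pow] using h2
  choose n s hs using key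
  set N := Finset.univ.sup n
  let s' : ∀ i, Γ(M, X.basicOpen (g i)) :=
    fun i => ores (X.basicOpen_le (g i)) f ^ (N - n i) • s i
  have hs' : ∀ i, mres M (inf_le_left : X.basicOpen (g i) ⊓ X.basicOpen f ≤ _) (s' i) =
      ores (inf_le_right.trans (X.basicOpen_le f) : X.basicOpen (g i) ⊓ X.basicOpen f ≤ W) f ^ N •
        mres M (inf_le_right : X.basicOpen (g i) ⊓ X.basicOpen f ≤ _) m := by
    intro i
    rw [mres_smul, hs, ores_pow, ores_ores, ← mul_smul, ← pow_add,
      Nat.sub_add_cancel (Finset.le_sup (Finset.mem_univ i))]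
  clear_value s'
  have key2 : ∀ i j, ∃ e : ℕ,
      ores (inf_le_left.trans (X.basicOpen_le (g i)) :
          X.basicOpen (g i) ⊓ X.basicOpen (g j) ≤ W) f ^ e •
        (mres M inf_le_left (s' i) - mres M inf_le_right (s' j)) = 0 := by
    intro i j
    have hle : X.basicOpen (g i) ⊓ X.basicOpen (g j) ≤ W := inf_le_left.trans (X.basicOpen_le _)
    have hA : IsAffineOpen (X.basicOpen (g i) ⊓ X.basicOpen (g j)) := by
      rw [← Scheme.basicOpen_mul]
      exact hW.basicOpen _
    have hb : X.basicOpen (ores hle f) = X.basicOpen (g i) ⊓ X.basicOpen (g j) ⊓ X.basicOpen f :=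
      basicOpen_ores _ _
    refine F.exists_pow_smul_eq_zero hA (ores hle f) _ ?_
    have h1 := congrArg (mres M (hb.le.trans (inf_le_inf_right _ inf_le_left))) (hs' i)
    have h2 := congrArg (mres M (hb.le.trans (inf_le_inf_right _ inf_le_right))) (hs' j)
    simp only [mres_smul, mres_mres, ores_pow, ores_ores] at h1 h2
    change mres M _ (_ - _) = 0
    rw [mres, map_sub, sub_eq_zero]
    exact ((mres_mres M _ _ _).trans h1).trans (((mres_mres M _ _ _).trans h2).symm)
  choose e he using key2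
  set E := Finset.univ.sup fun p : ι × ι => e p.1 p.2
  obtain ⟨t, ht⟩ := exists_glue M _ (fun i => X.basicOpen_le (g i)) hcov
    (fun i => ores (X.basicOpen_le (g i)) f ^ E • s' i) fun i j => by
      obtain ⟨d, hd⟩ := Nat.exists_eq_add_of_le
        (Finset.le_sup (f := fun p : ι × ι => e p.1 p.2) (Finset.mem_univ (i, j)))
      simp only [mres_smul, ores_pow, ores_ores]
      rw [← sub_eq_zero, ← smul_sub, show E = d + e i j from hd.trans (add_comm _ _), pow_add, mul_smul, he,
        smul_zero]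
  refine ⟨E + N, t, mres_ext M (fun i => X.basicOpen f ⊓ X.basicOpen (g i)) (fun i => inf_le_left)
    ?_ fun i => ?_⟩
  · rw [← inf_iSup_eq]
    exact le_inf le_rfl ((X.basicOpen_le f).trans hcov)
  · have h1 := congrArg (mres M (le_inf inf_le_right inf_le_left :
      X.basicOpen f ⊓ X.basicOpen (g i) ≤ X.basicOpen (g i) ⊓ X.basicOpen f)) (hs' i)
    have h2 := congrArg (mres M (inf_le_right : X.basicOpen f ⊓ X.basicOpen (g i) ≤ _)) (ht i)
    simp only [mres_smul, mres_mres, ores_pow, ores_ores] at h1 h2 ⊢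
    rw [h2, h1, ← mul_smul, ← pow_add]

/-- Near each point of an affine open some section over the whole open is a frame. -/
theorem exists_section_isFrame (p : X) (hp : p ∈ W) :
    ∃ (g : Γ(X, W)) (s : Γ(M, W)),
      p ∈ X.basicOpen g ∧ IsFrame (mres M (X.basicOpen_le g) s) := by
  obtain ⟨g, hg, hpg⟩ := hW.exists_basicOpen_le ⟨p, F.mem p⟩ hp
  obtain ⟨n, s, hs⟩ := F.exists_pow_smul_extend hW g (mres M hg (F.s p))
  refine ⟨g, s, hpg, ?_⟩
  rw [hs]
  refine ((F.isFrame p).res hg).smul ((IsUnit.pow n) ?_)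
  exact RingedSpace.isUnit_res_basicOpen X.toRingedSpace g

/-- Sections which are frames near every point span. -/
theorem span_eq_top {S : Set Γ(M, W)}
    (h : ∀ p ∈ W, ∃ g : Γ(X, W), ∃ s ∈ S,
      p ∈ X.basicOpen g ∧ IsFrame (mres M (X.basicOpen_le g) s)) :
    Submodule.span Γ(X, W) S = ⊤ := by
  refine Submodule.eq_top_iff'.mpr fun t => ?_
  choose g s hsS hpg hf using h
  have key : ∀ p : W, ∃ N : ℕ, g p p.2 ^ N • t ∈ Submodule.span Γ(X, W) S := by
    intro p
    obtain ⟨r, hr⟩ := (hf p p.2 _ le_rfl).surjective (mres M (X.basicOpen_le _) t)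
    obtain ⟨m, y, hy⟩ := exists_eq_pow_mul_of_isAffineOpen X _ hW (g p p.2) r
    change ores (X.basicOpen_le _) y = ores (X.basicOpen_le _) (g p p.2) ^ m * r at hy
    have h0 : mres M (X.basicOpen_le (g p p.2)) (g p p.2 ^ m • t - y • s p p.2) = 0 := by
      rw [mres, map_sub, sub_eq_zero]
      change mres M _ (g p p.2 ^ m • t) = mres M _ (y • s p p.2)
      simp only [mres_self] at hr
      rw [mres_smul, mres_smul, ores_pow, hy, mul_smul, hr]
    obtain ⟨l, hl⟩ := F.exists_pow_smul_eq_zero hW _ _ h0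
    refine ⟨l + m, ?_⟩
    rw [smul_sub, sub_eq_zero, ← mul_smul, ← pow_add, ← mul_smul] at hl
    rw [hl]
    exact Submodule.smul_mem _ _ (Submodule.subset_span (hsS p p.2))
  choose N hN using key
  have hspan : Ideal.span (Set.range fun p : W => g p p.2) = ⊤ := by
    rw [← hW.iSup_basicOpen_eq_self_iff]
    refine le_antisymm (iSup_le fun i => X.basicOpen_le _) fun q hq => ?_
    exact Opens.mem_iSup.mpr ⟨⟨g q hq, ⟨q, hq⟩, rfl⟩, hpg q hq⟩
  obtain ⟨a, ha⟩ : ∃ a : W → ℕ, a = N := ⟨N, rfl⟩
  have hpow : Ideal.span (Set.range fun p : W => g p p.2 ^ a p) = ⊤ := by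
    refine Ideal.radical_eq_top.mp ?_
    rw [eq_top_iff, ← hspan, Ideal.span_le]
    rintro _ ⟨p, rfl⟩
    exact ⟨a p, Ideal.subset_span ⟨p, rfl⟩⟩
  have h1 : (1 : Γ(X, W)) • t ∈ Submodule.span Γ(X, W) S := by
    have hmem : (1 : Γ(X, W)) ∈ Ideal.span (Set.range fun p : W => g p p.2 ^ a p) :=
      hpow ▸ trivial
    revert hmem
    generalize (1 : Γ(X, W)) = c
    intro hmem
    induction hmem using Submodule.span_induction with
    | mem _ h =>
      obtain ⟨p, rfl⟩ := h
      exact ha ▸ hN p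
    | zero => rw [zero_smul]; exact zero_mem _
    | add _ _ _ _ h h' => rw [add_smul]; exact add_mem h h'
    | smul r _ _ h => rw [smul_eq_mul, mul_smul]; exact Submodule.smul_mem _ r h
  rwa [one_smul] at h1

end Framing

end FermatAgent.Jacobian
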