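import Fermat.Agent.Jacobian.Cocycle.Local

/-!
# Sections of the module of a cocycle

Components of sections, products and pullbacks of sections, sections of the trivial cocycle,
spanning by products and by pullbacks over affine opens, and cocycles of open covers.
-/

set_option autoImplicit false

noncomputable section

universe u

open CategoryTheory TopologicalSpace AlgebraicGeometry Opposite

open scoped AlgebraicGeometry

namespace FermatAgent.Jacobian

variable {X Y : Scheme.{u}}

theorem ores_zero {U V : X.Opens} (h : V ≤ U) : ores h (0 : Γ(X, U)) = 0 := map_zero _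

namespace Cocycle

variable (c c' : Cocycle X) {W V : X.Opens}

/-- The component of a section at a point. -/
def comp (m : Γ(c.toModules, W)) (x : X) : Γ(X, W ⊓ c.U x) := (show c.sect W from m).1 x

/-- The component on any open inside both domains. -/
theorem comp_comp (m : Γ(c.toModules, W)) (x y : X) (V : X.Opens) (hV : V ≤ W) (hx : V ≤ c.U x)
    (hy : V ≤ c.U y) :
    ores (le_inf hV hy) (c.comp m y) = ores (le_inf hV hx) (c.comp m x) * c.val x y hx hy :=
  (show c.sect W from m).2 x y V hV hx hy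

variable {c}

theorem sec_ext {m m' : Γ(c.toModules, W)} (h : ∀ x, c.comp m x = c.comp m' x) : m = m' :=
  Subtype.ext (funext h)

/-- A section from its components. -/
def mkSec (f : ∀ x, Γ(X, W ⊓ c.U x))
    (hf : ∀ (x y : X) (V : X.Opens) (hV : V ≤ W) (hx : V ≤ c.U x) (hy : V ≤ c.U y),
      ores (le_inf hV hy) (f y) = ores (le_inf hV hx) (f x) * c.val x y hx hy) :
    Γ(c.toModules, W) :=
  show c.sect W from ⟨f, hf⟩

theorem comp_smul (r : Γ(X, W)) (m : Γ(c.toModules, W)) (x : X) :
    c.comp (r • m) x = ores inf_le_left r * c.comp m x := rfl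

theorem comp_add (m m' : Γ(c.toModules, W)) (x : X) :
    c.comp (m + m') x = c.comp m x + c.comp m' x := rfl

theorem comp_mres (h : V ≤ W) (m : Γ(c.toModules, W)) (x : X) :
    c.comp (mres c.toModules h m) x = ores (inf_le_inf_right _ h) (c.comp m x) := rfl

theorem comp_frame (z x : X) : c.comp (c.frame z) x = c.val z x inf_le_left inf_le_right := rfl

/-- A section is a frame iff all its components are units. -/
theorem isFrame_iff (m : Γ(c.toModules, W)) : IsFrame m ↔ ∀ x, IsUnit (c.comp m x) := by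
  have key : ∀ x, mres c.toModules (inf_le_left : W ⊓ c.U x ≤ W) m =
      c.comp m x • mres c.toModules inf_le_right (c.frame x) := by
    intro x
    refine sec_ext fun y => ?_
    rw [comp_mres, comp_smul, comp_mres, comp_frame, ores_val]
    exact c.comp_comp m x y _ (inf_le_left.trans inf_le_left) (inf_le_left.trans inf_le_right)
      inf_le_right
  constructor
  · intro hm x
    refine IsFrame.isUnit_of_smul ((c.isFrame_frame x).res (inf_le_right : W ⊓ c.U x ≤ _)) ?_
    rw [← key]
    exact hm.res _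
  · intro h
    refine isFrame_of_local (fun x => W ⊓ c.U x) (fun x => inf_le_left)
      (fun p hp => Opens.mem_iSup.mpr ⟨p, hp, c.mem p⟩) fun x => ?_
    rw [key]
    exact ((c.isFrame_frame x).res _).smul (h x)

variable {c'}

/-- The product of two sections. -/
def secMul (m : Γ(c.toModules, W)) (m' : Γ(c'.toModules, W)) : Γ((c * c').toModules, W) :=
  mkSec (fun x => ores (inf_le_inf_left _ inf_le_left) (c.comp m x) *
      ores (inf_le_inf_left _ inf_le_right) (c'.comp m' x))
    fun x y V hV hx hy => by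
      simp only [ores_mul, ores_ores, mul_val]
      rw [mul_mul_mul_comm, ← c.comp_comp m x y V hV (hx.trans inf_le_left) (hy.trans inf_le_left),
        ← c'.comp_comp m' x y V hV (hx.trans inf_le_right) (hy.trans inf_le_right)]

theorem comp_secMul (m : Γ(c.toModules, W)) (m' : Γ(c'.toModules, W)) (x : X) :
    (c * c').comp (secMul m m') x = ores (inf_le_inf_left _ inf_le_left) (c.comp m x) *
      ores (inf_le_inf_left _ inf_le_right) (c'.comp m' x) := rfl

theorem secMul_smul_left (r : Γ(X, W)) (m : Γ(c.toModules, W)) (m' : Γ(c'.toModules, W)) :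
    secMul (r • m) m' = r • secMul m m' := sec_ext fun x => by
  simp only [comp_secMul, comp_smul, ores_mul, ores_ores, mul_assoc]

theorem secMul_smul_right (r : Γ(X, W)) (m : Γ(c.toModules, W)) (m' : Γ(c'.toModules, W)) :
    secMul m (r • m') = r • secMul m m' := sec_ext fun x => by
  simp only [comp_secMul, comp_smul, ores_mul, ores_ores]
  ring

theorem mres_secMul (h : V ≤ W) (m : Γ(c.toModules, W)) (m' : Γ(c'.toModules, W)) :
    mres (c * c').toModules h (secMul m m') =
      secMul (mres c.toModules h m) (mres c'.toModules h m') := sec_ext fun x => by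
  simp only [comp_secMul, comp_mres, ores_mul, ores_ores]

theorem isFrame_secMul {m : Γ(c.toModules, W)} {m' : Γ(c'.toModules, W)} (hm : IsFrame m)
    (hm' : IsFrame m') : IsFrame (secMul m m') :=
  (isFrame_iff _).mpr fun x => (((isFrame_iff m).mp hm x).ores _).mul
    (((isFrame_iff m').mp hm' x).ores _)

theorem span_secMul_eq_top (hW : IsAffineOpen W) :
    Submodule.span Γ(X, W)
      (Set.range fun p : Γ(c.toModules, W) × Γ(c'.toModules, W) => secMul p.1 p.2) = ⊤ := by
  refine (c * c').framing.span_eq_top hW fun p hp => ?_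
  obtain ⟨g, s, hpg, hs⟩ := c.framing.exists_section_isFrame hW p hp
  obtain ⟨g', s', hpg', hs'⟩ := c'.framing.exists_section_isFrame hW p hp
  refine ⟨g * g', _, ⟨(s, s'), rfl⟩, ?_, ?_⟩
  · rw [Scheme.basicOpen_mul]
    exact ⟨hpg, hpg'⟩
  · rw [mres_secMul]
    have h := X.basicOpen_mul g g'
    refine isFrame_secMul ?_ ?_
    · rw [← mres_mres c.toModules (h.le.trans inf_le_left) (X.basicOpen_le g)]
      exact hs.res _
    · rw [← mres_mres c'.toModules (h.le.trans inf_le_right) (X.basicOpen_le g')]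
      exact hs'.res _

/-- A function as a section of the trivial cocycle. -/
def secOne (r : Γ(X, W)) : Γ((1 : Cocycle X).toModules, W) :=
  mkSec (fun _ => ores inf_le_left r) fun x y V hV hx hy => by simp

theorem comp_secOne (r : Γ(X, W)) (x : X) :
    (1 : Cocycle X).comp (secOne r) x = ores inf_le_left r := rfl

theorem bijective_secOne : Function.Bijective (secOne (X := X) (W := W)) := by
  refine ⟨fun r r' h => ?_, fun m => ?_⟩
  · refine ores_ext (fun x : X => W ⊓ (1 : Cocycle X).U x) (fun _ => inf_le_left)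
      (fun p hp => Opens.mem_iSup.mpr ⟨p, hp, trivial⟩) fun x => ?_
    exact congrArg (fun m => (1 : Cocycle X).comp m x) h
  · obtain ⟨r, hr⟩ := exists_oglue (fun x : X => W ⊓ (1 : Cocycle X).U x) (fun _ => inf_le_left)
      (fun p hp => Opens.mem_iSup.mpr ⟨p, hp, trivial⟩) ((1 : Cocycle X).comp m) fun x y => by
        have h := (1 : Cocycle X).comp_comp m x y _
          (inf_le_left.trans inf_le_left : (W ⊓ (1 : Cocycle X).U x) ⊓ (W ⊓ (1 : Cocycle X).U y) ≤ W)
          (inf_le_left.trans inf_le_right) (inf_le_right.trans inf_le_right)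
        simp only [one_val, mul_one] at h
        exact h.symm
    exact ⟨r, sec_ext hr⟩

variable (f : X ⟶ Y) {d : Cocycle Y} {W' : Y.Opens}

/-- The pullback of a section. -/
def secPull (h : W ≤ f ⁻¹ᵁ W') (m : Γ(d.toModules, W')) : Γ((d.pull f).toModules, W) :=
  mkSec (fun x => opull f (U := W' ⊓ d.U (f x)) (W := W ⊓ (d.pull f).U x)
      (inf_le_inf_right _ h) (d.comp m (f x)))
    fun x y V hV hx hy => by
      have hV' : V ≤ f ⁻¹ᵁ (W' ⊓ d.U (f x) ⊓ d.U (f y)) :=
        le_inf (le_inf (hV.trans h) hx) hy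
      have e := congrArg (opull f hV') (d.comp_comp m (f x) (f y) (W' ⊓ d.U (f x) ⊓ d.U (f y))
        (inf_le_left.trans inf_le_left) (inf_le_left.trans inf_le_right) inf_le_right)
      simp only [opull_mul, opull_ores, val] at e
      rw [pull_val]
      exact (ores_opull f _ (le_inf hV hy) _).trans
        (e.trans (congrArg₂ (· * ·) (ores_opull f _ (le_inf hV hx) _).symm rfl))

theorem comp_secPull (h : W ≤ f ⁻¹ᵁ W') (m : Γ(d.toModules, W')) (x : X) :
    (d.pull f).comp (secPull f h m) x = opull f (U := W' ⊓ d.U (f x)) (W := W ⊓ (d.pull f).U x)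
      (inf_le_inf_right _ h) (d.comp m (f x)) := rfl

theorem secPull_smul (h : W ≤ f ⁻¹ᵁ W') (r : Γ(Y, W')) (m : Γ(d.toModules, W')) :
    secPull f h (r • m) = opull f h r • secPull f h m := sec_ext fun x => by
  rw [comp_secPull, comp_smul, comp_smul, comp_secPull]
  refine (opull_mul f _ _ _).trans (congrArg₂ (· * ·) ?_ rfl)
  exact (opull_ores f _ _ _).trans (ores_opull f _ _ _).symm

theorem secPull_add (h : W ≤ f ⁻¹ᵁ W') (m m' : Γ(d.toModules, W')) :
    secPull f h (m + m') = secPull f h m + secPull f h m' := sec_ext fun x => by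
  rw [comp_add, comp_secPull, comp_secPull, comp_secPull, comp_add]
  exact (congrArg (ores _) (map_add (f.app (W' ⊓ d.U (f x))).hom _ _)).trans (ores_add _ _ _)

theorem mres_secPull (h : W ≤ f ⁻¹ᵁ W') (hV : V ≤ W) {V' : Y.Opens} (hV' : V' ≤ W')
    (h' : V ≤ f ⁻¹ᵁ V') (m : Γ(d.toModules, W')) :
    mres (d.pull f).toModules hV (secPull f h m) = secPull f h' (mres d.toModules hV' m) :=
  sec_ext fun x => by
    rw [comp_mres, comp_secPull, comp_secPull, comp_mres]
    exact (ores_opull f _ _ _).trans (opull_ores f _ _ _).symm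

theorem isFrame_secPull (h : W ≤ f ⁻¹ᵁ W') {m : Γ(d.toModules, W')} (hm : IsFrame m) :
    IsFrame (secPull f h m) :=
  (isFrame_iff _).mpr fun x => isUnit_opull f _ ((isFrame_iff m).mp hm (f x))

theorem span_secPull_eq_top (h : W ≤ f ⁻¹ᵁ W') (hW : IsAffineOpen W) (hW' : IsAffineOpen W') :
    Submodule.span Γ(X, W) (Set.range (secPull (d := d) f h)) = ⊤ := by
  refine (d.pull f).framing.span_eq_top hW fun p hp => ?_
  obtain ⟨g, s, hpg, hs⟩ := d.framing.exists_section_isFrame hW' (f p) (h hp)
  have hb : X.basicOpen (opull f h g) = W ⊓ f ⁻¹ᵁ Y.basicOpen g := by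
    rw [opull, basicOpen_ores, ← Scheme.preimage_basicOpen]
  refine ⟨opull f h g, _, ⟨s, rfl⟩, hb.ge ⟨hp, hpg⟩, ?_⟩
  rw [mres_secPull f h _ (Y.basicOpen_le g) (hb.le.trans inf_le_right)]
  exact isFrame_secPull f _ hs

/-- The cocycle of units on an open cover. -/
def ofCover {ι : Type*} (U : ι → X.Opens) (σ : X → ι) (hσ : ∀ x, x ∈ U (σ x))
    (g : ∀ i j, Γ(X, U i ⊓ U j)) (hu : ∀ i j, IsUnit (g i j))
    (hg : ∀ (i j l : ι) (W : X.Opens) (hi : W ≤ U i) (hj : W ≤ U j) (hl : W ≤ U l),
      ores (le_inf hi hj) (g i j) * ores (le_inf hj hl) (g j l) = ores (le_inf hi hl) (g i l)) :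
    Cocycle X where
  U x := U (σ x)
  mem := hσ
  g x y := g (σ x) (σ y)
  isUnit _ _ := hu _ _
  cocycle _ _ _ W hx hy hz := hg _ _ _ W hx hy hz

/-- The frame of the cocycle of a cover on a member of the cover. -/
def coverFrame {ι : Type*} {U : ι → X.Opens} {σ : X → ι} {hσ : ∀ x, x ∈ U (σ x)}
    {g : ∀ i j, Γ(X, U i ⊓ U j)} {hu : ∀ i j, IsUnit (g i j)}
    {hg : ∀ (i j l : ι) (W : X.Opens) (hi : W ≤ U i) (hj : W ≤ U j) (hl : W ≤ U l),
      ores (le_inf hi hj) (g i j) * ores (le_inf hj hl) (g j l) = ores (le_inf hi hl) (g i l)}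
    (i : ι) : Γ((ofCover U σ hσ g hu hg).toModules, U i) :=
  mkSec (fun x => g i (σ x)) fun x y V hV hx hy => (hg i (σ x) (σ y) V hV hx hy).symm

theorem isFrame_coverFrame {ι : Type*} {U : ι → X.Opens} {σ : X → ι} {hσ : ∀ x, x ∈ U (σ x)}
    {g : ∀ i j, Γ(X, U i ⊓ U j)} {hu : ∀ i j, IsUnit (g i j)}
    {hg : ∀ (i j l : ι) (W : X.Opens) (hi : W ≤ U i) (hj : W ≤ U j) (hl : W ≤ U l),
      ores (le_inf hi hj) (g i j) * ores (le_inf hj hl) (g j l) = ores (le_inf hi hl) (g i l)}
    (i : ι) : IsFrame (coverFrame (hσ := hσ) (hu := hu) (hg := hg) i) :=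
  (isFrame_iff _).mpr fun _ => hu _ _

theorem coverFrame_eq_smul {ι : Type*} {U : ι → X.Opens} {σ : X → ι} {hσ : ∀ x, x ∈ U (σ x)}
    {g : ∀ i j, Γ(X, U i ⊓ U j)} {hu : ∀ i j, IsUnit (g i j)}
    {hg : ∀ (i j l : ι) (W : X.Opens) (hi : W ≤ U i) (hj : W ≤ U j) (hl : W ≤ U l),
      ores (le_inf hi hj) (g i j) * ores (le_inf hj hl) (g j l) = ores (le_inf hi hl) (g i l)}
    (i j : ι) :
    mres _ (inf_le_left : U i ⊓ U j ≤ U i) (coverFrame (hσ := hσ) (hu := hu) (hg := hg) i) =
      g i j • mres _ inf_le_right (coverFrame (hσ := hσ) (hu := hu) (hg := hg) j) :=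
  sec_ext fun x => by
    rw [comp_mres, comp_smul, comp_mres]
    exact (hg i j (σ x) _ (inf_le_left.trans inf_le_left) (inf_le_left.trans inf_le_right)
      inf_le_right).symm

end Cocycle

end FermatAgent.Jacobian
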