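import Fermat.Agent.Jacobian.Cocycle.Group
import Fermat.Agent.Jacobian.Cocycle.Affine

/-!
# Cocycles of covers and comparisons

A cocycle on an indexed open cover determines a class in `PicC`; a comparison of two such cocycles
is a family of units on the mixed intersections. Pullback keeps the index type.
-/

set_option autoImplicit false

noncomputable section

universe u

open CategoryTheory TopologicalSpace AlgebraicGeometry Opposite

open scoped AlgebraicGeometry

namespace FermatAgent.Jacobian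

variable {X Y Z : Scheme.{u}}

open Cocycle (opull)

theorem Cocycle.opull_opull (g : X ⟶ Y) (f : Y ⟶ Z) {U : Z.Opens} {W : Y.Opens} {W' : X.Opens}
    (h : W ≤ f ⁻¹ᵁ U) (h' : W' ≤ g ⁻¹ᵁ W) (r : Γ(Z, U)) :
    opull g h' (opull f h r) =
      opull (g ≫ f) (h'.trans (g.preimage_mono h) : W' ≤ (g ≫ f) ⁻¹ᵁ U) r := by
  rw [show opull f h r = ores h (f.app U r) from rfl, Cocycle.opull_ores]
  simp only [Cocycle.opull]
  rw [Scheme.Hom.comp_app]
  rfl

theorem Cocycle.opull_id {U W : X.Opens} (h : W ≤ (𝟙 X) ⁻¹ᵁ U) (r : Γ(X, U)) :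
    opull (𝟙 X) h r = ores (show W ≤ U from h) r := by
  simp [Cocycle.opull]
  rfl

theorem opull_congr {f f' : X ⟶ Y} (e : f = f') {U : Y.Opens} {W : X.Opens} (h : W ≤ f ⁻¹ᵁ U)
    (r : Γ(Y, U)) : opull f h r = opull f' (e ▸ h) r := by
  subst e
  rfl

/-- A cocycle with a global frame has trivial class. -/
theorem PicC.mk_eq_one_of_isFrame {X : Scheme.{u}} {d : Cocycle X} {s : Γ(d.toModules, ⊤)}
    (hs : IsFrame s) : PicC.mk d = 1 := by
  rw [← PicC.mk_one, PicC.mk_eq_mk]
  let F : Framing (Cocycle.toModules (1 : Cocycle X)) :=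
    { U := fun _ => ⊤
      mem := fun _ => trivial
      s := fun _ => Cocycle.secOne 1
      isFrame := fun _ => (Cocycle.isFrame_iff _).mpr fun x => by
        rw [Cocycle.comp_secOne, ores_one]
        exact isUnit_one }
  have ht : F.Compat (N := d.toModules) fun _ => s := fun x y => by
    have h1 : F.trans x y = 1 := IsFrame.coef_eq _ (by simp [F])
    rw [h1, one_smul]
  have := F.isIso_of_isFrame ht.desc fun x => by
    rw [ht.desc_app_s]
    exact hs
  exact ⟨(asIso ht.desc).symm⟩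

/-- The Picard group of a one-point scheme is trivial. -/
theorem PicC.eq_one_of_subsingleton {X : Scheme.{u}} [Subsingleton X] (a : PicC X) : a = 1 := by
  obtain ⟨d, rfl⟩ := PicC.mk_surjective a
  refine Quotient.sound (Cocycle.equiv_of_agree (fun x => le_top) fun x y W hx hy => ?_)
  obtain rfl : x = y := Subsingleton.elim _ _
  rw [Cocycle.val_self, Cocycle.one_val]

/-- Units agreeing on overlaps glue to a unit. -/
theorem exists_isUnit_oglue {W : X.Opens} {ι : Type*} (V : ι → X.Opens) (hV : ∀ i, V i ≤ W)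
    (hcov : W ≤ iSup V) (r : ∀ i, Γ(X, V i)) (hr : ∀ i, IsUnit (r i))
    (h : ∀ i j, ores (inf_le_left : V i ⊓ V j ≤ V i) (r i) = ores inf_le_right (r j)) :
    ∃ t : Γ(X, W), IsUnit t ∧ ∀ i, ores (hV i) t = r i := by
  obtain ⟨t, ht⟩ := exists_oglue V hV hcov r h
  obtain ⟨t', ht'⟩ := exists_oglue V hV hcov (fun i => (↑(hr i).unit⁻¹ : Γ(X, V i))) fun i j => by
    have h1 := congrArg (ores (inf_le_left : V i ⊓ V j ≤ V i)) (hr i).val_inv_mul
    have h2 := congrArg (ores (inf_le_right : V i ⊓ V j ≤ V j)) (hr j).mul_val_inv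
    simp only [ores_mul, ores_one] at h1 h2
    rw [← h i j] at h2
    exact left_inv_eq_right_inv h1 h2
  refine ⟨t, IsUnit.of_mul_eq_one t' (ores_ext V hV hcov fun i => ?_), ht⟩
  rw [ores_mul, ores_one, ht, ht']
  exact (hr i).mul_val_inv

/-- A cocycle of units on an open cover. -/
structure Gl (X : Scheme.{u}) where
  /-- The index type. -/
  ι : Type u
  /-- The members of the cover. -/
  U : ι → X.Opens
  cover : ∀ x, ∃ i, x ∈ U i
  /-- The transition functions. -/
  g : ∀ i j, Γ(X, U i ⊓ U j)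
  isUnit : ∀ i j, IsUnit (g i j)
  cocycle : ∀ (i j l : ι) (W : X.Opens) (hi : W ≤ U i) (hj : W ≤ U j) (hl : W ≤ U l),
    ores (le_inf hi hj) (g i j) * ores (le_inf hj hl) (g j l) = ores (le_inf hi hl) (g i l)

namespace Gl

variable (G : Gl X)

/-- A chosen index at each point. -/
def idx (x : X) : G.ι := (G.cover x).choose

theorem mem_idx (x : X) : x ∈ G.U (G.idx x) := (G.cover x).choose_spec

/-- The cocycle at chosen indices. -/
def toCocycle : Cocycle X := Cocycle.ofCover G.U G.idx G.mem_idx G.g G.isUnit G.cocycle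

/-- The class of a cocycle of a cover. -/
def cls : PicC X := PicC.mk G.toCocycle

/-- The pullback, with the same index type. -/
def pull (f : Y ⟶ X) : Gl Y where
  ι := G.ι
  U i := f ⁻¹ᵁ G.U i
  cover y := G.cover (f y)
  g i j := opull f (U := G.U i ⊓ G.U j) (W := f ⁻¹ᵁ G.U i ⊓ f ⁻¹ᵁ G.U j) le_rfl (G.g i j)
  isUnit i j := Cocycle.isUnit_opull f _ (G.isUnit i j)
  cocycle i j l W hi hj hl := by
    have hW : W ≤ f ⁻¹ᵁ (G.U i ⊓ G.U j ⊓ G.U l) := le_inf (le_inf hi hj) hl
    have h := congrArg (opull f hW) (G.cocycle i j l (G.U i ⊓ G.U j ⊓ G.U l)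
      (inf_le_left.trans inf_le_left) (inf_le_left.trans inf_le_right) inf_le_right)
    simp only [Cocycle.opull_mul, Cocycle.opull_ores] at h
    exact (congrArg₂ (· * ·) (Cocycle.ores_opull f _ (le_inf hi hj) _)
      (Cocycle.ores_opull f _ (le_inf hj hl) _)).trans
      (h.trans (Cocycle.ores_opull f _ (le_inf hi hl) _).symm)

/-- The trivial cocycle on the one-element cover. -/
def triv (X : Scheme.{u}) : Gl X where
  ι := PUnit
  U _ := ⊤
  cover _ := ⟨PUnit.unit, trivial⟩
  g _ _ := 1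
  isUnit _ _ := isUnit_one
  cocycle _ _ _ _ _ _ _ := by simp

/-- A comparison of two cocycles of covers. -/
structure Cmp (G G' : Gl X) where
  /-- The comparison functions. -/
  h : ∀ a b, Γ(X, G.U a ⊓ G'.U b)
  isUnit : ∀ a b, IsUnit (h a b)
  left : ∀ (a a' : G.ι) (b : G'.ι) (W : X.Opens) (ha : W ≤ G.U a) (ha' : W ≤ G.U a')
    (hb : W ≤ G'.U b),
    ores (le_inf ha ha') (G.g a a') * ores (le_inf ha' hb) (h a' b) = ores (le_inf ha hb) (h a b)
  right : ∀ (a : G.ι) (b b' : G'.ι) (W : X.Opens) (ha : W ≤ G.U a) (hb : W ≤ G'.U b)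
    (hb' : W ≤ G'.U b'),
    ores (le_inf ha hb) (h a b) * ores (le_inf hb hb') (G'.g b b') = ores (le_inf ha hb') (h a b')

theorem Cmp.cls_eq {G G' : Gl X} (e : Cmp G G') : G.cls = G'.cls :=
  PicC.mk_eq_mk.mpr (Cocycle.nonempty_iso_iff.mpr
    ⟨{ h := fun x z => e.h (G.idx x) (G'.idx z)
       isUnit := fun _ _ => e.isUnit _ _
       left := fun _ _ _ W hx hy hz => e.left _ _ _ W hx hy hz
       right := fun _ _ _ W hx hy hz => e.right _ _ _ W hx hy hz }⟩)

/-- Equal classes have a comparison. -/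
theorem nonempty_cmp {G G' : Gl X} (h : G.cls = G'.cls) : Nonempty (Cmp G G') := by
  obtain ⟨e⟩ := PicC.mk_eq_mk.mp h
  let F : ∀ a, Γ(G.toCocycle.toModules, G.U a) := fun a =>
    Cocycle.coverFrame (hσ := G.mem_idx) (hu := G.isUnit) (hg := G.cocycle) a
  let F' : ∀ b, Γ(G'.toCocycle.toModules, G'.U b) := fun b =>
    Cocycle.coverFrame (hσ := G'.mem_idx) (hu := G'.isUnit) (hg := G'.cocycle) b
  have hF' : ∀ b, IsFrame (F' b) := fun b =>
    Cocycle.isFrame_coverFrame (hσ := G'.mem_idx) (hu := G'.isUnit) (hg := G'.cocycle) b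
  have ht : ∀ a, IsFrame (e.hom.app (G.U a) (F a)) := fun a => IsFrame.map e
    (Cocycle.isFrame_coverFrame (hσ := G.mem_idx) (hu := G.isUnit) (hg := G.cocycle) a)
  have key : ∀ (a : G.ι) (b : G'.ι) (W : X.Opens) (ha : W ≤ G.U a) (hb : W ≤ G'.U b),
      ores (le_inf ha hb) ((hF' b).coef inf_le_right
          (mres G'.toCocycle.toModules (inf_le_left : G.U a ⊓ G'.U b ≤ _) (e.hom.app _ (F a)))) •
        mres G'.toCocycle.toModules hb (F' b) =
      mres G'.toCocycle.toModules ha (e.hom.app _ (F a)) := by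
    intro a b W ha hb
    simpa [-IsFrame.coef_smul] using congrArg (mres G'.toCocycle.toModules (le_inf ha hb))
      ((hF' b).coef_smul inf_le_right
        (mres G'.toCocycle.toModules (inf_le_left : G.U a ⊓ G'.U b ≤ _) (e.hom.app _ (F a))))
  refine ⟨⟨fun a b => (hF' b).coef inf_le_right
    (mres G'.toCocycle.toModules inf_le_left (e.hom.app _ (F a))),
    fun a b => (hF' b).isUnit_coef ((ht a).res _) _, fun a a' b W ha ha' hb => ?_,
    fun a b b' W ha hb hb' => ?_⟩⟩
  · refine (hF' b).eq_of_smul_eq (h := hb) ?_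
    rw [mul_smul, key a' b W ha' hb, key a b W ha hb]
    have h := congrArg (mres G.toCocycle.toModules (le_inf ha ha'))
      (Cocycle.coverFrame_eq_smul (hσ := G.mem_idx) (hu := G.isUnit) (hg := G.cocycle) a a')
    erw [mres_mres, mres_smul, mres_mres] at h
    rw [← app_mres, ← app_mres, ← Scheme.Modules.Hom.app_smul]
    exact congrArg (e.hom.app W) h.symm
  · refine (hF' b').eq_of_smul_eq (h := hb') ?_
    have h := congrArg (mres G'.toCocycle.toModules (le_inf hb hb'))
      (Cocycle.coverFrame_eq_smul (hσ := G'.mem_idx) (hu := G'.isUnit) (hg := G'.cocycle) b b')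
    erw [mres_mres, mres_smul, mres_mres] at h
    rw [mul_smul, key a b' W ha hb']
    exact (congrArg _ h.symm).trans (key a b W ha hb)

/-- A cocycle indexed by points as a cocycle of a cover. -/
def ofCocycle (c : Cocycle X) : Gl X where
  ι := X
  U := c.U
  cover x := ⟨x, c.mem x⟩
  g := c.g
  isUnit := c.isUnit
  cocycle := c.cocycle

theorem cls_ofCocycle (c : Cocycle X) : (ofCocycle c).cls = PicC.mk c :=
  PicC.mk_eq_mk.mpr (Cocycle.nonempty_iso_iff.mpr
    ⟨{ h := fun x z => c.g ((ofCocycle c).idx x) z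
       isUnit := fun _ _ => c.isUnit _ _
       left := fun _ _ _ W hx hy hz => c.cocycle _ _ _ W hx hy hz
       right := fun _ _ _ W hx hy hz => c.cocycle _ _ _ W hx hy hz }⟩)

theorem exists_cls_eq (a : PicC X) : ∃ G : Gl X, G.cls = a :=
  let ⟨c, h⟩ := PicC.mk_surjective a
  ⟨ofCocycle c, (cls_ofCocycle c).trans h⟩

theorem cls_triv : (triv X).cls = 1 :=
  Quotient.sound (Cocycle.equiv_of_agree (fun _ => le_rfl) fun x y W hx hy => by
    rw [Cocycle.one_val]
    exact ores_one _)

/-- The class of the pullback. -/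
theorem cls_pull (f : Y ⟶ X) : (G.pull f).cls = PicC.pull f G.cls := by
  refine PicC.mk_eq_mk.mpr (Cocycle.nonempty_iso_iff.mpr ⟨?_⟩)
  exact
    { h := fun x z => opull f (U := G.U ((G.pull f).idx x) ⊓ G.U (G.idx (f z)))
        (W := f ⁻¹ᵁ G.U ((G.pull f).idx x) ⊓ f ⁻¹ᵁ G.U (G.idx (f z))) le_rfl
        (G.g ((G.pull f).idx x) (G.idx (f z)))
      isUnit := fun x z => Cocycle.isUnit_opull f _ (G.isUnit _ _)
      left := fun x y z W hx hy hz =>
        (G.pull f).cocycle ((G.pull f).idx x) ((G.pull f).idx y) (G.idx (f z)) W hx hy hz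
      right := fun x y z W hx hy hz =>
        (G.pull f).cocycle ((G.pull f).idx x) (G.idx (f y)) (G.idx (f z)) W hx hy hz }

end Gl

end FermatAgent.Jacobian
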