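import Fermat.Agent.Jacobian.Cocycle.Descend
import Fermat.Agent.Jacobian.Rep.Interface

/-!
# The rigidified Picard functor by cocycles

`RigClass c ε t` is the kernel of pullback along the rigidifying section on `PicC (C ×ₖ T)`. It is
in bijection with the classes of rigidified line bundles, and it is a sheaf of groups for open
covers when units are determined along the section.
-/

set_option autoImplicit false
set_option backward.isDefEq.respectTransparency false

noncomputable section

universe u

open CategoryTheory CategoryTheory.Limits TopologicalSpace AlgebraicGeometry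
  AlgebraicGeometry.RelPicard NeronModelInfra Opposite

open scoped AlgebraicGeometry

namespace FermatAgent.Jacobian

open Cocycle (opull)

variable {k : Type u} [Field k] {C : Scheme.{u}} (c : C ⟶ Spec (CommRingCat.of k))
  (ε : SchemeHomOver (𝟙 (Spec (CommRingCat.of k))) c)

/-- Units of the curve over an affine base which are one along the section are one. -/
def RigidUnits : Prop :=
  ∀ {T : Scheme.{u}} [IsAffine T] (t : T ⟶ Spec (CommRingCat.of k))
    (r : Γ(pullback c t, ⊤)), IsUnit r →
      opull (rigSection c t ε) (U := ⊤) (W := ⊤) le_top r = 1 → r = 1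

theorem rigSection_snd {T : Scheme.{u}} (t : T ⟶ Spec (CommRingCat.of k)) :
    rigSection c t ε ≫ pullback.snd c t = 𝟙 T :=
  pullback.lift_snd _ _ _

/-- The classes trivial along the section. -/
def RigClass {T : Scheme.{u}} (t : T ⟶ Spec (CommRingCat.of k)) : Type u :=
  ↥(PicC.pull (rigSection c t ε)).ker

instance {T : Scheme.{u}} (t : T ⟶ Spec (CommRingCat.of k)) : CommGroup (RigClass c ε t) :=
  inferInstanceAs (CommGroup ↥(PicC.pull (rigSection c t ε)).ker)

variable {c ε} {T T' T'' : Scheme.{u}} {t : T ⟶ Spec (CommRingCat.of k)}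
  {t' : T' ⟶ Spec (CommRingCat.of k)} {t'' : T'' ⟶ Spec (CommRingCat.of k)}

/-- The underlying class. -/
def RigClass.val (x : RigClass c ε t) : PicC (pullback c t) := x.1

@[simp]
theorem RigClass.pull_val (x : RigClass c ε t) : PicC.pull (rigSection c t ε) x.val = 1 := x.2

theorem RigClass.ext' {x y : RigClass c ε t} (h : x.val = y.val) : x = y := Subtype.ext h

/-- A class trivial along the section. -/
def RigClass.mk (a : PicC (pullback c t)) (h : PicC.pull (rigSection c t ε) a = 1) :
    RigClass c ε t :=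
  ⟨a, h⟩

/-- Pullback along a morphism of bases. -/
def RigClass.map (ψ : SchemeHomOver t' t) : RigClass c ε t →* RigClass c ε t' where
  toFun x := RigClass.mk (PicC.pull (baseChangeSnd c ψ) x.val) (by
    rw [← PicC.pull_comp, rigSection_baseChangeSnd c ε ψ, PicC.pull_comp, RigClass.pull_val,
      map_one])
  map_one' := RigClass.ext' (map_one (PicC.pull (baseChangeSnd c ψ)))
  map_mul' _ _ := RigClass.ext' (map_mul (PicC.pull (baseChangeSnd c ψ)) _ _)

@[simp]
theorem RigClass.val_map (ψ : SchemeHomOver t' t) (x : RigClass c ε t) :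
    (RigClass.map ψ x).val = PicC.pull (baseChangeSnd c ψ) x.val := rfl

theorem RigClass.map_id (x : RigClass c ε t) :
    RigClass.map ⟨𝟙 T, Category.id_comp t⟩ x = x := by
  refine RigClass.ext' ?_
  rw [RigClass.val_map, baseChangeSnd_id]
  exact PicC.pull_id _

theorem RigClass.map_map (φ : SchemeHomOver t' t) (ψ : SchemeHomOver t'' t')
    (x : RigClass c ε t) : RigClass.map ψ (RigClass.map φ x) = RigClass.map (postComp φ ψ) x := by
  refine RigClass.ext' ?_
  rw [RigClass.val_map, RigClass.val_map, RigClass.val_map, ← PicC.pull_comp, baseChangeSnd_comp]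

/-! ### Rigidified line bundles -/

/-- The class of a rigidified line bundle. -/
def RigClass.ofBundle (M : RigidifiedLineBundle c ε t) : RigClass c ε t :=
  RigClass.mk (PicC.ofModule M.L M.isInvertible) (by
    rw [PicC.pull_ofModule, ← PicC.ofModule_unit, PicC.ofModule_eq_iff]
    exact M.rigidified)

theorem RigClass.ofBundle_eq_iff {M M' : RigidifiedLineBundle c ε t} :
    RigClass.ofBundle M = RigClass.ofBundle M' ↔ Nonempty (M.L ≅ M'.L) :=
  ⟨fun h => (PicC.ofModule_eq_iff (hM := M.isInvertible) (hN := M'.isInvertible)).mp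
      (congrArg RigClass.val h),
    fun h => RigClass.ext'
      ((PicC.ofModule_eq_iff (hM := M.isInvertible) (hN := M'.isInvertible)).mpr h)⟩

theorem RigClass.ofBundle_surjective (x : RigClass c ε t) :
    ∃ M : RigidifiedLineBundle c ε t, RigClass.ofBundle M = x := by
  obtain ⟨d, hd⟩ := PicC.mk_surjective x.val
  have h : Nonempty ((Scheme.Modules.pullback (rigSection c t ε)).obj d.toModules ≅
      SheafOfModules.unit T.ringCatSheaf) := by
    refine (PicC.ofModule_eq_iff (hM := d.isInvertible_toModules.pullback _)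
      (hN := Scheme.Modules.isInvertible_unit T)).mp ?_
    rw [← PicC.pull_ofModule _ d.isInvertible_toModules, PicC.ofModule_toModules,
      PicC.ofModule_unit, hd]
    exact x.pull_val
  refine ⟨⟨d.toModules, d.isInvertible_toModules, h⟩, RigClass.ext' ?_⟩
  exact (PicC.ofModule_toModules d).trans hd

theorem RigClass.map_ofBundle (ψ : SchemeHomOver t' t) (M : RigidifiedLineBundle c ε t) :
    RigClass.map ψ (RigClass.ofBundle M) = RigClass.ofBundle (M.pullbackAlong ψ) :=
  RigClass.ext' (PicC.pull_ofModule _ M.isInvertible)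

theorem RigClass.ofBundle_unit :
    RigClass.ofBundle (RigidifiedLineBundle.unit (c := c) (ε := ε) t) = 1 :=
  RigClass.ext' PicC.ofModule_unit

/-! ### Open covers -/

section Open

variable (c) (U : T.Opens)

instance isOpenImmersion_openOver (t : T ⟶ Spec (CommRingCat.of k)) (U : T.Opens) :
    IsOpenImmersion (baseChangeSnd c (openOver t U)) := by
  unfold baseChangeSnd openOver
  infer_instance

theorem opensRange_openOver :
    (baseChangeSnd c (openOver t U)).opensRange = pullback.snd c t ⁻¹ᵁ U := by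
  refine Opens.ext ?_
  change Set.range (baseChangeSnd c (openOver t U)) = _
  unfold baseChangeSnd openOver
  erw [Scheme.Pullback.range_map]
  simp

end Open

theorem rigid_of_rigidUnits (h : RigidUnits c ε) :
    Rigid (pullback.snd c t) (rigSection c t ε) := by
  intro V hV r hr he
  refine ores_ext (fun W : {W : T.Opens // IsAffineOpen W ∧ W ≤ V} => pullback.snd c t ⁻¹ᵁ W.1)
    (fun W => (pullback.snd c t).preimage_mono W.2.2) (fun x hx => ?_) fun W => ?_
  · obtain ⟨W, hW, hxW, hWV⟩ := Opens.isBasis_iff_nbhd.mp T.isBasis_affineOpens hx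
    exact Opens.mem_iSup.mpr ⟨⟨W, hW, hWV⟩, hxW⟩
  rw [ores_one]
  set j := baseChangeSnd c (openOver t W.1)
  have hj : j.opensRange = pullback.snd c t ⁻¹ᵁ W.1 := opensRange_openOver c W.1
  have htop : ⊤ ≤ j ⁻¹ᵁ (pullback.snd c t ⁻¹ᵁ W.1) := fun p _ => by
    change j p ∈ pullback.snd c t ⁻¹ᵁ W.1
    rw [← hj]
    exact ⟨p, rfl⟩
  refine opull_inj j hj.ge ?_
  have : IsAffine W.1.toScheme := W.2.1
  have h1 : opull j htop (ores ((pullback.snd c t).preimage_mono W.2.2) r) = 1 := by
    refine h (W.1.ι ≫ t) _ (Cocycle.isUnit_opull j _ (hr.ores _)) ?_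
    rw [Cocycle.opull_opull, opull_congr (rigSection_baseChangeSnd c ε (openOver t W.1))]
    rw [Cocycle.opull_ores]
    have h2 := congrArg (opull W.1.ι (U := V) (W := ⊤) (fun p _ => W.2.2 p.2)) he
    rw [Cocycle.opull_opull, Cocycle.opull_one] at h2
    exact h2
  have h3 := congrArg (ores (le_top : j ⁻¹ᵁ (pullback.snd c t ⁻¹ᵁ W.1) ≤ ⊤)) h1
  rw [Cocycle.ores_opull, ores_one] at h3
  rw [Cocycle.opull_one]
  exact h3

theorem RigClass.ext_open (h : RigidUnits c ε) {ι : Type u} (U : ι → T.Opens)
    (hU : ∀ p : T, ∃ i, p ∈ U i) (x y : RigClass c ε t)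
    (he : ∀ i, RigClass.map (openOver t (U i)) x = RigClass.map (openOver t (U i)) y) : x = y := by
  rw [← div_eq_one]
  set z := x / y
  have hz : ∀ i, PicC.pull (baseChangeSnd c (openOver t (U i))) z.val = 1 := fun i => by
    rw [← RigClass.val_map, map_div, he, div_self']
    rfl
  obtain ⟨G, hG⟩ := Gl.exists_cls_eq z.val
  refine RigClass.ext' ?_
  rw [← hG]
  exact cls_eq_one_of_locally_trivial U hU (fun i => pullback c ((U i).ι ≫ t))
    (fun i => baseChangeSnd c (openOver t (U i))) (rigSection_snd c ε t) (rigid_of_rigidUnits h)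
    (fun i => opensRange_openOver c (U i)) G (hG ▸ z.pull_val) (fun i => hG ▸ hz i)

theorem RigClass.glue_open (h : RigidUnits c ε) {ι : Type u} (U : ι → T.Opens)
    (hU : ∀ p : T, ∃ i, p ∈ U i) (x : ∀ i, RigClass c ε ((U i).ι ≫ t))
    (hx : ∀ i j (V : T.Opens) (hi : V ≤ U i) (hj : V ≤ U j),
      RigClass.map (t' := V.ι ≫ t) ⟨T.homOfLE hi, by rw [← Category.assoc, Scheme.homOfLE_ι]⟩
          (x i) =
        RigClass.map (t' := V.ι ≫ t) ⟨T.homOfLE hj, by rw [← Category.assoc, Scheme.homOfLE_ι]⟩
          (x j)) :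
    ∃ z : RigClass c ε t, ∀ i, RigClass.map (openOver t (U i)) z = x i := by
  have hc : ∀ i, ∃ G : Gl (pullback c ((U i).ι ≫ t)), G.cls = (x i).val ∧
      Nonempty (Gl.Cmp (G.pull (rigSection c ((U i).ι ≫ t) ε)) (Gl.triv (U i).toScheme)) := by
    intro i
    obtain ⟨G, hG⟩ := Gl.exists_cls_eq (x i).val
    refine ⟨G, hG, Gl.nonempty_cmp ?_⟩
    rw [Gl.cls_pull, hG, RigClass.pull_val, Gl.cls_triv]
  choose G hG cG using hc
  have e₁ : ∀ i, rigSection c ((U i).ι ≫ t) ε ≫ baseChangeSnd c (openOver t (U i)) =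
      (U i).ι ≫ rigSection c t ε := fun i => rigSection_baseChangeSnd c ε (openOver t (U i))
  have hcmp : ∀ i l, Nonempty (PCmp (pullback.snd c t) (rigSection c t ε)
      (Piece.ofGl (baseChangeSnd c (openOver t (U i))) (rigSection_snd c ε t)
        (opensRange_openOver c (U i)) _ (e₁ i) (G i) (cG i).some)
      (Piece.ofGl (baseChangeSnd c (openOver t (U l))) (rigSection_snd c ε t)
        (opensRange_openOver c (U l)) _ (e₁ l) (G l) (cG l).some)) := by
    intro i l
    have hb : ∀ {V W : T.Opens} (hVW : V ≤ W),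
        baseChangeSnd c (⟨T.homOfLE hVW, by rw [← Category.assoc, Scheme.homOfLE_ι]⟩ :
            SchemeHomOver (V.ι ≫ t) (W.ι ≫ t)) ≫ baseChangeSnd c (openOver t W) =
          baseChangeSnd c (openOver t V) := by
      intro V W hVW
      rw [baseChangeSnd_comp]
      congr 1
      exact Subtype.ext (Scheme.homOfLE_ι _ hVW)
    refine nonempty_pcmp_ofGl _ _ (baseChangeSnd c (openOver t (U i ⊓ U l)))
      (rigSection_snd c ε t) (opensRange_openOver c (U i)) (opensRange_openOver c (U l))
      (opensRange_openOver c (U i ⊓ U l)) le_rfl (e₁ i) (e₁ l) (cG i).some (cG l).some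
      (baseChangeSnd c ⟨T.homOfLE inf_le_left, by rw [← Category.assoc, Scheme.homOfLE_ι]⟩)
      (baseChangeSnd c ⟨T.homOfLE inf_le_right, by rw [← Category.assoc, Scheme.homOfLE_ι]⟩)
      (hb inf_le_left) (hb inf_le_right) (Gl.nonempty_cmp ?_).some
    rw [Gl.cls_pull, Gl.cls_pull, hG, hG]
    exact congrArg RigClass.val (hx i l (U i ⊓ U l) inf_le_left inf_le_right)
  choose e he using fun i l => (hcmp i l).some.exists_normalised (rigSection_snd c ε t)
  refine ⟨RigClass.mk (patch U _ e hU (rigSection_snd c ε t) (rigid_of_rigidUnits h) he).cls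
    (cls_pull_patch U _ e hU _ _ he), fun i => RigClass.ext' ?_⟩
  exact (cls_pull_patch_ofGl U _ _ _ _ _ _ G _ hU _ e he i).trans (hG i)

end FermatAgent.Jacobian
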