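import Fermat.Agent.Jacobian.Cocycle.Frame

/-!
# Unit cocycles indexed by points

A cocycle on `X` is an open neighbourhood `U x` of every point `x` with units `g x y` on
`U x ⊓ U y` satisfying the cocycle identity. Cocycles can be multiplied, inverted and pulled back
pointwise; a cocycle defines a sheaf of modules with frames having `g` as transition functions.
-/

set_option autoImplicit false

noncomputable section

universe u

open CategoryTheory TopologicalSpace AlgebraicGeometry Opposite

open scoped AlgebraicGeometry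

namespace FermatAgent.Jacobian

variable {X Y Z : Scheme.{u}}

/-- Functions agreeing locally are equal. -/
theorem ores_ext {U : X.Opens} {ι : Type*} (V : ι → X.Opens) (hV : ∀ i, V i ≤ U)
    (hcov : U ≤ iSup V) {r r' : Γ(X, U)} (h : ∀ i, ores (hV i) r = ores (hV i) r') : r = r' :=
  TopCat.Sheaf.eq_of_locally_eq' X.sheaf V U (fun i => homOfLE (hV i)) hcov r r' h

/-- Compatible local functions glue. -/
theorem exists_oglue {U : X.Opens} {ι : Type*} (V : ι → X.Opens) (hV : ∀ i, V i ≤ U)
    (hcov : U ≤ iSup V) (r : ∀ i, Γ(X, V i))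
    (h : ∀ i j, ores (inf_le_left : V i ⊓ V j ≤ V i) (r i) = ores inf_le_right (r j)) :
    ∃ t : Γ(X, U), ∀ i, ores (hV i) t = r i :=
  (TopCat.Sheaf.existsUnique_gluing' X.sheaf V U (fun i => homOfLE (hV i)) hcov r h).exists

/-- A cocycle of units indexed by points. -/
@[ext]
structure Cocycle (X : Scheme.{u}) where
  /-- The open at a point. -/
  U : X → X.Opens
  mem : ∀ x, x ∈ U x
  /-- The transition function. -/
  g : ∀ x y, Γ(X, U x ⊓ U y)
  isUnit : ∀ x y, IsUnit (g x y)
  cocycle : ∀ (x y z : X) (W : X.Opens) (hx : W ≤ U x) (hy : W ≤ U y) (hz : W ≤ U z),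
    ores (le_inf hx hy) (g x y) * ores (le_inf hy hz) (g y z) = ores (le_inf hx hz) (g x z)

namespace Cocycle

variable (c c' : Cocycle X)

/-- The transition function on a smaller open. -/
def val (x y : X) {W : X.Opens} (hx : W ≤ c.U x) (hy : W ≤ c.U y) : Γ(X, W) :=
  ores (le_inf hx hy) (c.g x y)

theorem isUnit_val (x y : X) {W : X.Opens} (hx : W ≤ c.U x) (hy : W ≤ c.U y) :
    IsUnit (c.val x y hx hy) :=
  (c.isUnit x y).ores _

@[simp]
theorem ores_val {x y : X} {W W' : X.Opens} (hx : W ≤ c.U x) (hy : W ≤ c.U y) (h : W' ≤ W) :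
    ores h (c.val x y hx hy) = c.val x y (h.trans hx) (h.trans hy) :=
  ores_ores _ _ _

theorem val_mul_val (x y z : X) {W : X.Opens} (hx : W ≤ c.U x) (hy : W ≤ c.U y) (hz : W ≤ c.U z) :
    c.val x y hx hy * c.val y z hy hz = c.val x z hx hz :=
  c.cocycle x y z W hx hy hz

@[simp]
theorem val_self (x : X) {W : X.Opens} (hx hx' : W ≤ c.U x) : c.val x x hx hx' = 1 := by
  have h := c.val_mul_val x x x hx hx' hx
  have hu := c.isUnit_val x x hx hx'
  exact hu.mul_left_cancel (by rw [mul_one]; exact h)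

theorem val_mul_symm (x y : X) {W : X.Opens} (hx : W ≤ c.U x) (hy : W ≤ c.U y) :
    c.val x y hx hy * c.val y x hy hx = 1 := by
  rw [val_mul_val, val_self]

/-- The trivial cocycle. -/
instance : One (Cocycle X) where
  one :=
    { U := fun _ => ⊤
      mem := fun _ => trivial
      g := fun _ _ => 1
      isUnit := fun _ _ => isUnit_one
      cocycle := by intros; simp }

/-- The product of cocycles. -/
instance : Mul (Cocycle X) where
  mul a b :=
    { U := fun x => a.U x ⊓ b.U x
      mem := fun x => ⟨a.mem x, b.mem x⟩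
      g := fun x y => a.val x y (inf_le_left.trans inf_le_left) (inf_le_right.trans inf_le_left) *
        b.val x y (inf_le_left.trans inf_le_right) (inf_le_right.trans inf_le_right)
      isUnit := fun x y => (a.isUnit_val ..).mul (b.isUnit_val ..)
      cocycle := fun x y z W hx hy hz => by
        simp only [ores_mul, ores_val]
        rw [mul_mul_mul_comm, val_mul_val, val_mul_val] }

/-- The inverse cocycle. -/
instance : Inv (Cocycle X) where
  inv a :=
    { U := a.U
      mem := a.mem
      g := fun x y => a.val y x inf_le_right inf_le_left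
      isUnit := fun x y => a.isUnit_val ..
      cocycle := fun x y z W hx hy hz => by
        simp only [ores_val]
        rw [mul_comm, val_mul_val] }

theorem mul_val (x y : X) {W : X.Opens} (hx : W ≤ (c * c').U x) (hy : W ≤ (c * c').U y) :
    (c * c').val x y hx hy =
      c.val x y (hx.trans inf_le_left) (hy.trans inf_le_left) *
        c'.val x y (hx.trans inf_le_right) (hy.trans inf_le_right) := by
  change ores _ (c.val x y _ _ * c'.val x y _ _) = _
  simp

theorem inv_val (x y : X) {W : X.Opens} (hx : W ≤ c⁻¹.U x) (hy : W ≤ c⁻¹.U y) :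
    c⁻¹.val x y hx hy = c.val y x hy hx := by
  change ores (le_inf hx hy : W ≤ c.U x ⊓ c.U y) (c.val y x inf_le_right inf_le_left) = _
  rw [ores_val]

@[simp]
theorem one_val (x y : X) {W : X.Opens} (hx : W ≤ (1 : Cocycle X).U x)
    (hy : W ≤ (1 : Cocycle X).U y) : (1 : Cocycle X).val x y hx hy = 1 :=
  ores_one _

/-- Pullback of a function, restricted. -/
def opull (f : X ⟶ Y) {U : Y.Opens} {W : X.Opens} (h : W ≤ f ⁻¹ᵁ U) (r : Γ(Y, U)) : Γ(X, W) :=
  ores h (f.app U r)

@[simp]
theorem opull_mul (f : X ⟶ Y) {U : Y.Opens} {W : X.Opens} (h : W ≤ f ⁻¹ᵁ U) (r r' : Γ(Y, U)) :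
    opull f h (r * r') = opull f h r * opull f h r' := by
  simp [opull]

@[simp]
theorem opull_one (f : X ⟶ Y) {U : Y.Opens} {W : X.Opens} (h : W ≤ f ⁻¹ᵁ U) :
    opull f h (1 : Γ(Y, U)) = 1 := by
  simp [opull]

@[simp]
theorem ores_opull (f : X ⟶ Y) {U : Y.Opens} {W W' : X.Opens} (h : W ≤ f ⁻¹ᵁ U) (h' : W' ≤ W)
    (r : Γ(Y, U)) : ores h' (opull f h r) = opull f (h'.trans h) r :=
  ores_ores _ _ _

@[simp]
theorem opull_ores (f : X ⟶ Y) {U U' : Y.Opens} {W : X.Opens} (hU : U' ≤ U) (h : W ≤ f ⁻¹ᵁ U')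
    (r : Γ(Y, U)) : opull f h (ores hU r) = opull f (h.trans (f.preimage_mono hU)) r := by
  rw [opull, show f.app U' (ores hU r) = ores (f.preimage_mono hU) (f.app U r) from
    ConcreteCategory.congr_hom (f.naturality (homOfLE hU).op) r, ores_ores]
  rfl

theorem isUnit_opull (f : X ⟶ Y) {U : Y.Opens} {W : X.Opens} (h : W ≤ f ⁻¹ᵁ U) {r : Γ(Y, U)}
    (hr : IsUnit r) : IsUnit (opull f h r) :=
  (hr.map (f.app U).hom).ores h

/-- The pullback cocycle. -/
def pull (f : X ⟶ Y) (c : Cocycle Y) : Cocycle X where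
  U x := f ⁻¹ᵁ c.U (f x)
  mem x := c.mem (f x)
  g x y := opull f (U := c.U (f x) ⊓ c.U (f y)) (W := f ⁻¹ᵁ c.U (f x) ⊓ f ⁻¹ᵁ c.U (f y)) le_rfl
    (c.g (f x) (f y))
  isUnit x y := isUnit_opull f _ (c.isUnit _ _)
  cocycle x y z W hx hy hz := by
    have hW : W ≤ f ⁻¹ᵁ (c.U (f x) ⊓ c.U (f y) ⊓ c.U (f z)) := le_inf (le_inf hx hy) hz
    have h := congrArg (opull f hW) (c.cocycle (f x) (f y) (f z) (c.U (f x) ⊓ c.U (f y) ⊓ c.U (f z))
      (inf_le_left.trans inf_le_left) (inf_le_left.trans inf_le_right) inf_le_right)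
    simp only [opull_mul, opull_ores] at h
    exact (congrArg₂ (· * ·) (ores_opull f _ (le_inf hx hy) _)
      (ores_opull f _ (le_inf hy hz) _)).trans (h.trans (ores_opull f _ (le_inf hx hz) _).symm)

theorem pull_val (f : X ⟶ Y) (c : Cocycle Y) (x y : X) {W : X.Opens} (hx : W ≤ (c.pull f).U x)
    (hy : W ≤ (c.pull f).U y) :
    (c.pull f).val x y hx hy =
      opull f (U := c.U (f x) ⊓ c.U (f y)) (le_inf hx hy) (c.g (f x) (f y)) := by
  simp only [val, pull]
  exact ores_opull f (U := c.U (f x) ⊓ c.U (f y))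
    (W := f ⁻¹ᵁ c.U (f x) ⊓ f ⁻¹ᵁ c.U (f y)) le_rfl (le_inf hx hy) (c.g (f x) (f y))

/-! ### The module of a cocycle -/

/-- Sections of the module of `c` over `W`. -/
def sect (W : X.Opens) : AddSubgroup (∀ x, Γ(X, W ⊓ c.U x)) where
  carrier := {f | ∀ (x y : X) (V : X.Opens) (hV : V ≤ W) (hx : V ≤ c.U x) (hy : V ≤ c.U y),
    ores (le_inf hV hy) (f y) = ores (le_inf hV hx) (f x) * c.val x y hx hy}
  zero_mem' := by
    intro x y V hV hx hy
    simp [ores]
  add_mem' := by
    intro f f' hf hf' x y V hV hx hy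
    simp [hf x y V hV hx hy, hf' x y V hV hx hy, add_mul]
  neg_mem' := by
    intro f hf x y V hV hx hy
    simp only [Pi.neg_apply, ores, map_neg, neg_mul, neg_inj]
    exact hf x y V hV hx hy

instance (W : X.Opens) : Module Γ(X, W) (c.sect W) where
  smul r f := ⟨fun x => ores inf_le_left r * f.1 x, fun x y V hV hx hy => by
    simp only [ores_mul, ores_ores, f.2 x y V hV hx hy, mul_assoc]⟩
  one_smul f := Subtype.ext (funext fun x => by
    change ores _ (1 : Γ(X, W)) * f.1 x = f.1 x
    simp)
  mul_smul r r' f := Subtype.ext (funext fun x => by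
    change ores _ (r * r') * f.1 x = ores _ r * (ores _ r' * f.1 x)
    simp [mul_assoc])
  smul_zero r := Subtype.ext (funext fun x => mul_zero _)
  smul_add r f f' := Subtype.ext (funext fun x => mul_add _ _ _)
  add_smul r r' f := Subtype.ext (funext fun x => by
    change ores _ (r + r') * f.1 x = ores _ r * f.1 x + ores _ r' * f.1 x
    simp [add_mul])
  zero_smul f := Subtype.ext (funext fun x => by
    change ores _ (0 : Γ(X, W)) * f.1 x = 0
    simp [ores])

/-- Restriction of sections. -/
def sectRes {W W' : X.Opens} (h : W' ≤ W) : c.sect W →+ c.sect W' where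
  toFun f := ⟨fun x => ores (inf_le_inf_right _ h) (f.1 x), fun x y V hV hx hy => by
    simpa using f.2 x y V (hV.trans h) hx hy⟩
  map_zero' := Subtype.ext (funext fun x => by simp [ores])
  map_add' f f' := Subtype.ext (funext fun x => ores_add _ _ _)

/-- The presheaf of sections. -/
def sectPresheaf : TopCat.Presheaf Ab.{u} X where
  obj W := AddCommGrpCat.of (c.sect W.unop)
  map i := AddCommGrpCat.ofHom (c.sectRes (leOfHom i.unop))
  map_id W := by
    ext f
    exact ores_self _
  map_comp i j := by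
    ext f
    exact (ores_ores _ _ _).symm

theorem sectPresheaf_isSheaf : c.sectPresheaf.IsSheaf := by
  rw [TopCat.Presheaf.isSheaf_iff_isSheafUniqueGluing]
  intro ι V sf hsf
  have hcov : ∀ x, iSup V ⊓ c.U x ≤ ⨆ i, V i ⊓ c.U x := fun x => (iSup_inf_eq V (c.U x)).le
  have hsf' : ∀ x i j, ores (inf_le_left : (V i ⊓ c.U x) ⊓ (V j ⊓ c.U x) ≤ _) ((sf i).1 x) =
      ores inf_le_right ((sf j).1 x) := by
    intro x i j
    have hle : (V i ⊓ c.U x) ⊓ (V j ⊓ c.U x) ≤ V i ⊓ V j ⊓ c.U x :=
      le_inf (inf_le_inf inf_le_left inf_le_left) (inf_le_left.trans inf_le_right)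
    have h := congrArg (fun f => ores hle (f.1 x)) (hsf i j)
    exact ((ores_ores _ _ _).symm.trans h).trans (ores_ores _ _ _)
  have hglue : ∀ x, ∃ t : Γ(X, iSup V ⊓ c.U x),
      ∀ i, ores (inf_le_inf_right _ (le_iSup V i)) t = (sf i).1 x :=
    fun x => exists_oglue _ _ (hcov x) _ (hsf' x)
  choose t ht using hglue
  refine ⟨⟨t, fun x y W hW hx hy => ?_⟩, fun i => Subtype.ext (funext fun x => ht x i), ?_⟩
  · refine ores_ext (fun i => W ⊓ V i) (fun i => inf_le_left) ?_ fun i => ?_
    · rw [← inf_iSup_eq]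
      exact le_inf le_rfl hW
    · have h := (sf i).2 x y (W ⊓ V i) inf_le_right (inf_le_left.trans hx) (inf_le_left.trans hy)
      rw [← ht y i, ← ht x i] at h
      simpa using h
  · intro t' ht'
    refine Subtype.ext (funext fun x => ores_ext _
      (fun i => inf_le_inf_right _ (le_iSup V i)) (hcov x) fun i => ?_)
    rw [ht x i]
    exact congrArg (fun f => f.1 x) (ht' i)

/-- The sheaf of modules of a cocycle. -/
def toModules : X.Modules :=
  letI : ∀ W : X.Opensᵒᵖ, Module (X.ringCatSheaf.obj.obj W) (c.sectPresheaf.obj W) :=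
    fun W => inferInstanceAs (Module Γ(X, W.unop) (c.sect W.unop))
  ⟨PresheafOfModules.ofPresheaf c.sectPresheaf fun W W' i r f => Subtype.ext (funext fun x => by
      change ores _ (ores _ r * f.1 x) = ores _ (ores _ r) * ores _ (f.1 x)
      exact (ores_mul _ _ _).trans
        (congrArg₂ _ ((ores_ores _ _ _).trans (ores_ores _ _ _).symm) rfl)), c.sectPresheaf_isSheaf⟩

/-- The standard frame at a point. -/
def frame (z : X) : Γ(c.toModules, c.U z) :=
  show c.sect (c.U z) from ⟨fun x => c.val z x inf_le_left inf_le_right,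
    fun x y V hV hx hy => by simp [val_mul_val]⟩

theorem isFrame_frame (z : X) : IsFrame (c.frame z) := by
  intro V h
  have key : ∀ (r : Γ(X, V)) (x : X),
      (show c.sect V from r • mres c.toModules h (c.frame z)).1 x =
        ores inf_le_left r * c.val z x (inf_le_left.trans h) inf_le_right := by
    intro r x
    change ores _ r * ores (inf_le_inf_right _ h)
      (c.val z x (inf_le_left : c.U z ⊓ c.U x ≤ c.U z) inf_le_right) = _
    rw [ores_val]
  constructor
  · intro r r' hr
    have h1 := congrArg (fun f : c.sect V => ores (le_inf le_rfl h : V ≤ V ⊓ c.U z) (f.1 z)) hr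
    simp only [key] at h1
    simpa using h1
  · intro f
    refine ⟨ores (le_inf le_rfl h : V ≤ V ⊓ c.U z) ((show c.sect V from f).1 z), ?_⟩
    refine Subtype.ext (funext fun x => (key _ x).trans ?_)
    have h1 := (show c.sect V from f).2 z x (V ⊓ c.U x) inf_le_left (inf_le_left.trans h)
      inf_le_right
    simpa using h1.symm

/-- The standard framing. -/
@[simps]
def framing : Framing c.toModules where
  U := c.U
  mem := c.mem
  s := c.frame
  isFrame := c.isFrame_frame

theorem frame_eq_smul (x y : X) :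
    mres c.toModules (inf_le_left : c.U x ⊓ c.U y ≤ c.U x) (c.frame x) =
      c.val x y inf_le_left inf_le_right • mres c.toModules inf_le_right (c.frame y) := by
  refine Subtype.ext (funext fun z => ?_)
  change ores (inf_le_inf_right _ inf_le_left : (c.U x ⊓ c.U y) ⊓ c.U z ≤ _)
      (c.val x z (inf_le_left : c.U x ⊓ c.U z ≤ c.U x) inf_le_right) =
    ores inf_le_left (c.val x y (inf_le_left : c.U x ⊓ c.U y ≤ c.U x) inf_le_right) *
      ores (inf_le_inf_right _ inf_le_right : (c.U x ⊓ c.U y) ⊓ c.U z ≤ _)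
        (c.val y z (inf_le_left : c.U y ⊓ c.U z ≤ c.U y) inf_le_right)
  simp only [ores_val]
  exact (c.val_mul_val x y z _ _ _).symm

theorem framing_trans (x y : X) : c.framing.trans x y = c.g x y := by
  refine IsFrame.coef_eq _ ?_
  have h := c.frame_eq_smul x y
  rw [val, ores_self] at h
  exact h.symm

end Cocycle

end FermatAgent.Jacobian
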