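import Fermat.Agent.Jacobian.Cocycle.Patch

/-!
# Transfer along open immersions

Functions on opens inside the range of an open immersion are functions on the source. Cocycles
of the source give pieces of the target, comparisons descend, and the patched cocycle restricts
to the pieces.
-/

set_option autoImplicit false
set_option backward.isDefEq.respectTransparency false

noncomputable section

universe u

open CategoryTheory TopologicalSpace AlgebraicGeometry Opposite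

open scoped AlgebraicGeometry

namespace FermatAgent.Jacobian

open Cocycle (opull)

variable {X X' Z T : Scheme.{u}} (j : X' ⟶ X) [IsOpenImmersion j]

theorem bijective_opull {W : X.Opens} (hW : W ≤ j.opensRange) :
    Function.Bijective fun r : Γ(X, W) => opull j (le_refl (j ⁻¹ᵁ W)) r := by
  have := j.isIso_app W hW
  simpa [Cocycle.opull] using ConcreteCategory.bijective_of_isIso (j.app W)

theorem opull_inj {W : X.Opens} (hW : W ≤ j.opensRange) {r r' : Γ(X, W)}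
    (h : opull j (le_refl (j ⁻¹ᵁ W)) r = opull j (le_refl (j ⁻¹ᵁ W)) r') : r = r' :=
  (bijective_opull j hW).injective h

/-- A function of the source as a function of the target. -/
def odesc {W : X.Opens} (hW : W ≤ j.opensRange) (r : Γ(X', j ⁻¹ᵁ W)) : Γ(X, W) :=
  ((bijective_opull j hW).surjective r).choose

theorem opull_odesc {W : X.Opens} (hW : W ≤ j.opensRange) (r : Γ(X', j ⁻¹ᵁ W)) {W' : X'.Opens}
    (h : W' ≤ j ⁻¹ᵁ W) : opull j h (odesc j hW r) = ores h r := by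
  conv_rhs => rw [← ((bijective_opull j hW).surjective r).choose_spec]
  exact (Cocycle.ores_opull j le_rfl h _).symm

theorem isUnit_odesc {W : X.Opens} (hW : W ≤ j.opensRange) {r : Γ(X', j ⁻¹ᵁ W)} (hr : IsUnit r) :
    IsUnit (odesc j hW r) := by
  refine IsUnit.of_mul_eq_one (odesc j hW ↑hr.unit⁻¹) (opull_inj j hW ?_)
  rw [Cocycle.opull_mul, opull_odesc, opull_odesc, ores_self, ores_self, Cocycle.opull_one]
  exact hr.mul_val_inv

theorem opull_comp_odesc (ψ : Z ⟶ X') {f : Z ⟶ X} (e : ψ ≫ j = f) {W : X.Opens}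
    (hW : W ≤ j.opensRange) (r : Γ(X', j ⁻¹ᵁ W)) {W' : Z.Opens} (h : W' ≤ f ⁻¹ᵁ W)
    (h' : W' ≤ ψ ⁻¹ᵁ (j ⁻¹ᵁ W)) : opull f h (odesc j hW r) = opull ψ h' r := by
  have h1 := Cocycle.opull_opull ψ j (le_refl (j ⁻¹ᵁ W)) h' (odesc j hW r)
  rw [opull_odesc, ores_self] at h1
  rw [h1]
  exact opull_congr e.symm _ _

theorem preimage_image_le (U : X'.Opens) : j ⁻¹ᵁ (j ''ᵁ U) ≤ U := (j.preimage_image_eq U).le

theorem le_preimage_image (U : X'.Opens) : U ≤ j ⁻¹ᵁ (j ''ᵁ U) := (j.preimage_image_eq U).ge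

variable {q : X ⟶ T} {σ : T ⟶ X}

theorem section_preimage_le {V : T.Opens} (σ' : V.toScheme ⟶ X') (e : σ' ≫ j = V.ι ≫ σ)
    (U : X'.Opens) : V.ι ⁻¹ᵁ σ ⁻¹ᵁ (j ''ᵁ U) ≤ σ' ⁻¹ᵁ U := by
  intro p hp
  have h : j (σ' p) = σ (V.ι p) := congrArg (fun f : V.toScheme ⟶ X => f p) e
  refine preimage_image_le j U ?_
  change j (σ' p) ∈ j ''ᵁ U
  rw [h]
  exact hp

theorem image_le_preimage {V : T.Opens} (hj : j.opensRange = q ⁻¹ᵁ V) (U : X'.Opens) :
    j ''ᵁ U ≤ q ⁻¹ᵁ V :=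
  hj ▸ j.image_le_opensRange U

/-- The piece of a cocycle of an open part, trivialised along the section. -/
def Piece.ofGl {V : T.Opens} (hσ : σ ≫ q = 𝟙 T) (hj : j.opensRange = q ⁻¹ᵁ V)
    (σ' : V.toScheme ⟶ X') (e : σ' ≫ j = V.ι ≫ σ) (G : Gl X')
    (c : Gl.Cmp (G.pull σ') (Gl.triv V.toScheme)) : Piece q σ V where
  ι := G.ι
  U a := j ''ᵁ G.U a
  le a := image_le_preimage j hj _
  cover x hx := by
    rw [← hj] at hx
    obtain ⟨y, rfl⟩ := hx
    obtain ⟨a, ha⟩ := G.cover y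
    exact ⟨a, le_preimage_image j _ ha⟩
  g a b := odesc j (inf_le_left.trans (j.image_le_opensRange _))
    (ores (le_inf ((j.preimage_mono inf_le_left).trans (preimage_image_le j _))
      ((j.preimage_mono inf_le_right).trans (preimage_image_le j _))) (G.g a b))
  isUnit a b := isUnit_odesc j _ ((G.isUnit a b).ores _)
  cocycle a b d W ha hb hd := by
    refine opull_inj j (ha.trans (j.image_le_opensRange _)) ?_
    rw [Cocycle.opull_mul, Cocycle.opull_ores, Cocycle.opull_ores, Cocycle.opull_ores,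
      opull_odesc, opull_odesc, opull_odesc, ores_ores, ores_ores, ores_ores]
    exact G.cocycle a b d _ ((j.preimage_mono ha).trans (preimage_image_le j _))
      ((j.preimage_mono hb).trans (preimage_image_le j _))
      ((j.preimage_mono hd).trans (preimage_image_le j _))
  τ a := odesc V.ι (W := σ ⁻¹ᵁ (j ''ᵁ G.U a))
    (by
      rw [Scheme.Opens.opensRange_ι]
      intro p hp
      have h := image_le_preimage j hj _ hp
      change q (σ p) ∈ V at h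
      rwa [show q (σ p) = p from congrArg (fun f : T ⟶ T => f p) hσ] at h)
    (ores (le_inf (section_preimage_le j σ' e _) le_top) (c.h a PUnit.unit))
  isUnit_τ a := isUnit_odesc V.ι _ ((c.isUnit a PUnit.unit).ores _)
  τ_spec a b W ha hb := by
    have hW : W ≤ V.ι.opensRange := by
      rw [Scheme.Opens.opensRange_ι]
      intro p hp
      have h := image_le_preimage j hj _ (ha hp)
      change q (σ p) ∈ V at h
      rwa [show q (σ p) = p from congrArg (fun f : T ⟶ T => f p) hσ] at h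
    have ha' : V.ι ⁻¹ᵁ W ≤ σ' ⁻¹ᵁ G.U a :=
      (V.ι.preimage_mono ha).trans (section_preimage_le j σ' e _)
    have hb' : V.ι ⁻¹ᵁ W ≤ σ' ⁻¹ᵁ G.U b :=
      (V.ι.preimage_mono hb).trans (section_preimage_le j σ' e _)
    refine opull_inj V.ι hW ?_
    rw [Cocycle.opull_mul, Cocycle.opull_ores, Cocycle.opull_ores, opull_odesc, opull_odesc,
      ores_ores, ores_ores, Cocycle.opull_opull,
      opull_comp_odesc j σ' e _ _ _ (show V.ι ⁻¹ᵁ W ≤ σ' ⁻¹ᵁ (j ⁻¹ᵁ (j ''ᵁ G.U a ⊓ j ''ᵁ G.U b))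
        from le_inf (ha'.trans (σ'.preimage_mono (le_preimage_image j _)))
          (hb'.trans (σ'.preimage_mono (le_preimage_image j _)))), Cocycle.opull_ores]
    have h := c.left a b PUnit.unit (V.ι ⁻¹ᵁ W) ha' hb' le_top
    change ores _ (opull σ' _ (G.g a b)) * _ = _ at h
    rw [Cocycle.ores_opull] at h
    exact h

/-- Comparisons descend. -/
theorem nonempty_pcmp_ofGl {V V' V'' : T.Opens} {X₁ X₂ : Scheme.{u}} (j₁ : X₁ ⟶ X)
    [IsOpenImmersion j₁] (j₂ : X₂ ⟶ X) [IsOpenImmersion j₂] (j₃ : Z ⟶ X) [IsOpenImmersion j₃]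
    (hσ : σ ≫ q = 𝟙 T) (h₁ : j₁.opensRange = q ⁻¹ᵁ V) (h₂ : j₂.opensRange = q ⁻¹ᵁ V')
    (h₃ : j₃.opensRange = q ⁻¹ᵁ V'') (hV : V ⊓ V' ≤ V'')
    {σ₁ : V.toScheme ⟶ X₁} (e₁ : σ₁ ≫ j₁ = V.ι ≫ σ) {σ₂ : V'.toScheme ⟶ X₂}
    (e₂ : σ₂ ≫ j₂ = V'.ι ≫ σ) {G₁ : Gl X₁} {G₂ : Gl X₂}
    (c₁ : Gl.Cmp (G₁.pull σ₁) (Gl.triv V.toScheme))
    (c₂ : Gl.Cmp (G₂.pull σ₂) (Gl.triv V'.toScheme)) (ψ₁ : Z ⟶ X₁) (ψ₂ : Z ⟶ X₂)
    (f₁ : ψ₁ ≫ j₁ = j₃) (f₂ : ψ₂ ≫ j₂ = j₃) (c : Gl.Cmp (G₁.pull ψ₁) (G₂.pull ψ₂)) :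
    Nonempty (PCmp q σ (Piece.ofGl j₁ hσ h₁ σ₁ e₁ G₁ c₁) (Piece.ofGl j₂ hσ h₂ σ₂ e₂ G₂ c₂)) := by
  have hrange : ∀ a b, j₁ ''ᵁ G₁.U a ⊓ j₂ ''ᵁ G₂.U b ≤ j₃.opensRange := fun a b => by
    rw [h₃]
    exact le_trans (le_inf (inf_le_left.trans (image_le_preimage j₁ h₁ _))
      (inf_le_right.trans (image_le_preimage j₂ h₂ _))) (q.preimage_mono hV)
  have hle₁ : ∀ {W : X.Opens} {a}, W ≤ j₁ ''ᵁ G₁.U a → j₃ ⁻¹ᵁ W ≤ ψ₁ ⁻¹ᵁ G₁.U a := by
    intro W a hW p hp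
    refine preimage_image_le j₁ _ ?_
    change j₁ (ψ₁ p) ∈ j₁ ''ᵁ _
    rw [show j₁ (ψ₁ p) = j₃ p from congrArg (fun f : Z ⟶ X => f p) f₁]
    exact hW hp
  have hle₂ : ∀ {W : X.Opens} {b}, W ≤ j₂ ''ᵁ G₂.U b → j₃ ⁻¹ᵁ W ≤ ψ₂ ⁻¹ᵁ G₂.U b := by
    intro W b hW p hp
    refine preimage_image_le j₂ _ ?_
    change j₂ (ψ₂ p) ∈ j₂ ''ᵁ _
    rw [show j₂ (ψ₂ p) = j₃ p from congrArg (fun f : Z ⟶ X => f p) f₂]
    exact hW hp
  refine ⟨{ h := fun a b => odesc j₃ (hrange a b)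
              (ores (le_inf (hle₁ inf_le_left) (hle₂ inf_le_right)) (c.h a b))
            isUnit := fun a b => isUnit_odesc j₃ _ ((c.isUnit a b).ores _)
            left := fun a a' b W ha ha' hb => ?_
            right := fun a b b' W ha hb hb' => ?_ }⟩
  · refine opull_inj j₃ ((le_inf ha hb).trans (hrange a b)) ?_
    rw [Cocycle.opull_mul, Cocycle.opull_ores, Cocycle.opull_ores, Cocycle.opull_ores, opull_odesc,
      opull_odesc, ores_ores, ores_ores]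
    simp only [Piece.ofGl]
    rw [opull_comp_odesc j₁ ψ₁ f₁ _ _ _ (show j₃ ⁻¹ᵁ W ≤
        ψ₁ ⁻¹ᵁ (j₁ ⁻¹ᵁ (j₁ ''ᵁ G₁.U a ⊓ j₁ ''ᵁ G₁.U a')) from
      le_inf ((hle₁ ha).trans (ψ₁.preimage_mono (le_preimage_image j₁ _)))
        ((hle₁ ha').trans (ψ₁.preimage_mono (le_preimage_image j₁ _)))), Cocycle.opull_ores]
    have h := c.left a a' b (j₃ ⁻¹ᵁ W) (hle₁ ha) (hle₁ ha') (hle₂ hb)
    change ores _ (opull ψ₁ _ (G₁.g a a')) * _ = _ at h
    rw [Cocycle.ores_opull] at h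
    exact h
  · refine opull_inj j₃ ((le_inf ha hb').trans (hrange a b')) ?_
    rw [Cocycle.opull_mul, Cocycle.opull_ores, Cocycle.opull_ores, Cocycle.opull_ores, opull_odesc,
      opull_odesc, ores_ores, ores_ores]
    simp only [Piece.ofGl]
    rw [opull_comp_odesc j₂ ψ₂ f₂ _ _ _ (show j₃ ⁻¹ᵁ W ≤
        ψ₂ ⁻¹ᵁ (j₂ ⁻¹ᵁ (j₂ ''ᵁ G₂.U b ⊓ j₂ ''ᵁ G₂.U b')) from
      le_inf ((hle₂ hb).trans (ψ₂.preimage_mono (le_preimage_image j₂ _)))
        ((hle₂ hb').trans (ψ₂.preimage_mono (le_preimage_image j₂ _)))), Cocycle.opull_ores]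
    have h := c.right a b b' (j₃ ⁻¹ᵁ W) (hle₁ ha) (hle₂ hb) (hle₂ hb')
    change _ * ores _ (opull ψ₂ _ (G₂.g b b')) = _ at h
    rw [Cocycle.ores_opull] at h
    exact h

section Restrict

variable {I : Type u} (V : I → T.Opens) (X₁ : I → Scheme.{u}) (j₁ : ∀ i, X₁ i ⟶ X)
  [∀ i, IsOpenImmersion (j₁ i)] (hσ : σ ≫ q = 𝟙 T) (hj : ∀ i, (j₁ i).opensRange = q ⁻¹ᵁ V i)
  (σ₁ : ∀ i, (V i).toScheme ⟶ X₁ i) (e₁ : ∀ i, σ₁ i ≫ j₁ i = (V i).ι ≫ σ) (G : ∀ i, Gl (X₁ i))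
  (c : ∀ i, Gl.Cmp ((G i).pull (σ₁ i)) (Gl.triv (V i).toScheme))

/-- The patched cocycle restricts to the given ones. -/
theorem cls_pull_patch_ofGl (hV : ∀ p : T, ∃ i, p ∈ V i) (hr : Rigid q σ)
    (e : ∀ i k, PCmp q σ (Piece.ofGl (j₁ i) hσ (hj i) (σ₁ i) (e₁ i) (G i) (c i))
      (Piece.ofGl (j₁ k) hσ (hj k) (σ₁ k) (e₁ k) (G k) (c k)))
    (he : ∀ i k, (e i k).Normalised) (i : I) :
    PicC.pull (j₁ i) (patch V _ e hV hσ hr he).cls = (G i).cls := by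
  rw [← Gl.cls_pull]
  have hle : ∀ a, (G i).U a ≤ j₁ i ⁻¹ᵁ ((j₁ i) ''ᵁ (G i).U a) :=
    fun a => le_preimage_image (j₁ i) _
  refine Gl.Cmp.cls_eq
    { h := fun p a => opull (j₁ i)
        (U := (Piece.ofGl (j₁ p.1) hσ (hj p.1) (σ₁ p.1) (e₁ p.1) (G p.1) (c p.1)).U p.2 ⊓
          (j₁ i) ''ᵁ (G i).U a)
        (inf_le_inf_left _ (hle a)) ((e p.1 i).h p.2 a)
      isUnit := fun p a => Cocycle.isUnit_opull _ _ ((e p.1 i).isUnit _ _)
      left := fun p p' a W hp hp' ha => ?_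
      right := fun p a a' W hp ha ha' => ?_ }
  · have hW : W ≤ j₁ i ⁻¹ᵁ ((j₁ p.1 ''ᵁ (G p.1).U p.2 ⊓ j₁ p'.1 ''ᵁ (G p'.1).U p'.2) ⊓
        j₁ i ''ᵁ (G i).U a) := le_inf (le_inf hp hp') (ha.trans (hle a))
    have h := congrArg (opull (j₁ i) hW) (PCmp.Normalised.mul_eq hσ hr (he p.1 p'.1) (he p'.1 i)
      (he p.1 i) p.2 p'.2 a _ (inf_le_left.trans inf_le_left) (inf_le_left.trans inf_le_right)
      inf_le_right)
    rw [Cocycle.opull_mul, Cocycle.opull_ores, Cocycle.opull_ores, Cocycle.opull_ores] at h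
    change ores _ (opull (j₁ i) _ ((e p.1 p'.1).h p.2 p'.2)) * _ = _
    rw [Cocycle.ores_opull, Cocycle.ores_opull, Cocycle.ores_opull]
    exact h
  · have hW : W ≤ j₁ i ⁻¹ᵁ (j₁ p.1 ''ᵁ (G p.1).U p.2 ⊓ j₁ i ''ᵁ (G i).U a ⊓
        j₁ i ''ᵁ (G i).U a') := le_inf (le_inf hp (ha.trans (hle a))) (ha'.trans (hle a'))
    have h := congrArg (opull (j₁ i) hW) ((e p.1 i).right p.2 a a' _
      (inf_le_left.trans inf_le_left) (inf_le_left.trans inf_le_right) inf_le_right)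
    rw [Cocycle.opull_mul, Cocycle.opull_ores, Cocycle.opull_ores, Cocycle.opull_ores] at h
    simp only [Piece.ofGl] at h
    rw [opull_odesc] at h
    rw [Cocycle.ores_opull, Cocycle.ores_opull, ← h, ores_ores]

end Restrict

/-! ### Separatedness -/

/-- A cocycle on the total space as a piece over the whole base. -/
def Piece.ofGlobal (G : Gl X) (c : Gl.Cmp (G.pull σ) (Gl.triv T)) : Piece q σ (⊤ : T.Opens) where
  ι := G.ι
  U := G.U
  le _ := fun _ _ => trivial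
  cover x _ := G.cover x
  g := G.g
  isUnit := G.isUnit
  cocycle := G.cocycle
  τ a := ores (le_inf le_rfl le_top) (c.h a PUnit.unit)
  isUnit_τ a := (c.isUnit a _).ores _
  τ_spec a b W ha hb := by
    rw [ores_ores, ores_ores]
    have h := c.left a b PUnit.unit W ha hb le_top
    change ores _ (opull σ _ (G.g a b)) * _ = _ at h
    rw [Cocycle.ores_opull] at h
    exact h

/-- The trivial piece over an open of the base. -/
def Piece.trivial (V : T.Opens) : Piece q σ V where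
  ι := PUnit
  U _ := q ⁻¹ᵁ V
  le _ := le_rfl
  cover _ hx := ⟨PUnit.unit, hx⟩
  g _ _ := 1
  isUnit _ _ := isUnit_one
  cocycle _ _ _ _ _ _ _ := by simp
  τ _ := 1
  isUnit_τ _ := isUnit_one
  τ_spec _ _ _ _ _ := by simp

theorem nonempty_pcmp_trivial {V : T.Opens} (hj : j.opensRange = q ⁻¹ᵁ V) {G : Gl X}
    (c : Gl.Cmp (G.pull σ) (Gl.triv T)) (c' : Gl.Cmp (G.pull j) (Gl.triv X')) :
    Nonempty (PCmp q σ (Piece.ofGlobal (q := q) G c) (Piece.trivial V)) := by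
  refine ⟨{ h := fun a _ => odesc j (inf_le_right.trans hj.ge)
              (ores (le_inf (j.preimage_mono inf_le_left) le_top) (c'.h a PUnit.unit))
            isUnit := fun a _ => isUnit_odesc j _ ((c'.isUnit a _).ores _)
            left := fun a a' b W ha ha' hb => ?_
            right := fun a b b' W ha hb hb' => ?_ }⟩
  · refine opull_inj j (hb.trans hj.ge) ?_
    rw [Cocycle.opull_mul, Cocycle.opull_ores, Cocycle.opull_ores, Cocycle.opull_ores, opull_odesc,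
      opull_odesc, ores_ores, ores_ores]
    have h := c'.left a a' PUnit.unit (j ⁻¹ᵁ W) (j.preimage_mono ha) (j.preimage_mono ha') le_top
    change ores _ (opull j _ (G.g a a')) * _ = _ at h
    rw [Cocycle.ores_opull] at h
    exact h
  · change _ * ores _ (1 : Γ(X, q ⁻¹ᵁ V ⊓ q ⁻¹ᵁ V)) = _
    rw [ores_one, mul_one]

/-- A rigidified class trivial over every member of a cover of the base is trivial. -/
theorem cls_eq_one_of_locally_trivial {I : Type u} (V : I → T.Opens)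
    (hV : ∀ p : T, ∃ i, p ∈ V i) (X₁ : I → Scheme.{u}) (j₁ : ∀ i, X₁ i ⟶ X)
    [∀ i, IsOpenImmersion (j₁ i)] (hσ : σ ≫ q = 𝟙 T) (hr : Rigid q σ)
    (hj : ∀ i, (j₁ i).opensRange = q ⁻¹ᵁ V i) (G : Gl X) (hG : PicC.pull σ G.cls = 1)
    (hG' : ∀ i, PicC.pull (j₁ i) G.cls = 1) : G.cls = 1 := by
  obtain ⟨c⟩ := Gl.nonempty_cmp ((G.cls_pull σ).trans (hG.trans Gl.cls_triv.symm))
  have hn := fun i => PCmp.exists_normalised hσ (nonempty_pcmp_trivial (j₁ i) (hj i) c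
    (Gl.nonempty_cmp ((G.cls_pull (j₁ i)).trans ((hG' i).trans Gl.cls_triv.symm))).some).some
  choose e he using hn
  have key : ∀ i k (a : G.ι) (W : X.Opens) (ha : W ≤ G.U a) (hi : W ≤ q ⁻¹ᵁ V i)
      (hk : W ≤ q ⁻¹ᵁ V k),
      ores (le_inf ha hi) ((e i).h a PUnit.unit) = ores (le_inf ha hk) ((e k).h a PUnit.unit) := by
    intro i k a W ha hi hk
    let d : PCmp q σ (Piece.trivial (V i)) (Piece.trivial (V k)) :=
      { h := fun _ _ => 1
        isUnit := fun _ _ => isUnit_one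
        left := fun _ _ _ _ _ _ _ => by
          change ores _ (1 : Γ(X, q ⁻¹ᵁ V i ⊓ q ⁻¹ᵁ V i)) * _ = _
          simp
        right := fun _ _ _ _ _ _ _ => by
          change _ * ores _ (1 : Γ(X, q ⁻¹ᵁ V k ⊓ q ⁻¹ᵁ V k)) = _
          simp }
    have hd : d.Normalised := fun _ _ W' _ _ => by
      change opull σ _ (1 : Γ(X, q ⁻¹ᵁ V i ⊓ q ⁻¹ᵁ V k)) * ores _ (1 : Γ(T, _)) = ores _ (1 : Γ(T, _))
      rw [Cocycle.opull_one, one_mul, ores_one, ores_one]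
    have h := PCmp.Normalised.mul_eq hσ hr (he i) hd (he k) a PUnit.unit PUnit.unit W ha hi hk
    change _ * ores _ (1 : Γ(X, q ⁻¹ᵁ V i ⊓ q ⁻¹ᵁ V k)) = _ at h
    rwa [ores_one, mul_one] at h
  have hg := fun a : G.ι => exists_isUnit_oglue (W := G.U a) (fun i => G.U a ⊓ q ⁻¹ᵁ V i)
    (fun i => inf_le_left)
    (fun x hx => by
      obtain ⟨i, hi⟩ := hV (q x)
      exact Opens.mem_iSup.mpr ⟨i, hx, hi⟩)
    (fun i => (e i).h a PUnit.unit) (fun i => (e i).isUnit _ _)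
    (fun i k => key i k a _ (inf_le_left.trans inf_le_left) (inf_le_left.trans inf_le_right)
      (inf_le_right.trans inf_le_right))
  choose h hu hh using hg
  rw [← Gl.cls_triv]
  refine Gl.Cmp.cls_eq
    { h := fun a _ => ores inf_le_left (h a)
      isUnit := fun a _ => (hu a).ores _
      left := fun a a' b W ha ha' hb => ?_
      right := fun a b b' W ha hb hb' => ?_ }
  · rw [ores_ores, ores_ores]
    refine ores_ext (fun i => W ⊓ q ⁻¹ᵁ V i) (fun i => inf_le_left)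
      (fun x hx => by
        obtain ⟨i, hi⟩ := hV (q x)
        exact Opens.mem_iSup.mpr ⟨i, hx, hi⟩) fun i => ?_
    have h1 := congrArg (ores (inf_le_inf_right _ ha : W ⊓ q ⁻¹ᵁ V i ≤ _)) (hh a i)
    have h2 := congrArg (ores (inf_le_inf_right _ ha' : W ⊓ q ⁻¹ᵁ V i ≤ _)) (hh a' i)
    have h3 := (e i).left a a' PUnit.unit (W ⊓ q ⁻¹ᵁ V i) (inf_le_left.trans ha)
      (inf_le_left.trans ha') inf_le_right
    rw [ores_ores] at h1 h2
    rw [ores_mul, ores_ores, ores_ores, ores_ores, h1, h2]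
    exact h3
  · change _ * ores _ (1 : Γ(X, (⊤ : X.Opens) ⊓ ⊤)) = _
    rw [ores_one, mul_one]

end FermatAgent.Jacobian
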