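import Fermat.Agent.Jacobian.Cocycle.Sections

/-!
# Frames of sheaves of modules

A frame of `M` on an open `U` is a section generating `M` freely on every smaller open. A family
of frames with covering domains determines morphisms out of `M` by the images of the frames.
-/

set_option autoImplicit false

noncomputable section

universe u

open CategoryTheory TopologicalSpace AlgebraicGeometry Opposite

open scoped AlgebraicGeometry

namespace FermatAgent.Jacobian

variable {X : Scheme.{u}} {M N : X.Modules}

/-- `s` generates `M` freely on every open inside `U`. -/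
def IsFrame {U : X.Opens} (s : Γ(M, U)) : Prop :=
  ∀ (V : X.Opens) (h : V ≤ U), Function.Bijective fun r : Γ(X, V) => r • mres M h s

namespace IsFrame

variable {U V W : X.Opens} {s : Γ(M, U)} (hs : IsFrame s)
include hs

theorem res (h : V ≤ U) : IsFrame (mres M h s) := by
  intro W hW
  simpa using hs W (hW.trans h)

/-- The coefficient of a section with respect to a frame. -/
def coef (h : V ≤ U) (t : Γ(M, V)) : Γ(X, V) :=
  ((hs V h).surjective t).choose

@[simp]
theorem coef_smul (h : V ≤ U) (t : Γ(M, V)) : hs.coef h t • mres M h s = t :=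
  ((hs V h).surjective t).choose_spec

theorem coef_eq {h : V ≤ U} {t : Γ(M, V)} {r : Γ(X, V)} (he : r • mres M h s = t) :
    hs.coef h t = r :=
  (hs V h).injective ((hs.coef_smul h t).trans he.symm)

theorem eq_of_smul_eq {h : V ≤ U} {r r' : Γ(X, V)} (he : r • mres M h s = r' • mres M h s) :
    r = r' :=
  (hs V h).injective he

@[simp]
theorem coef_add (h : V ≤ U) (t t' : Γ(M, V)) :
    hs.coef h (t + t') = hs.coef h t + hs.coef h t' :=
  hs.coef_eq (by rw [add_smul, coef_smul, coef_smul])

@[simp]
theorem coef_smul_left (h : V ≤ U) (r : Γ(X, V)) (t : Γ(M, V)) :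
    hs.coef h (r • t) = r * hs.coef h t :=
  hs.coef_eq (by rw [mul_smul, coef_smul])

theorem coef_mres (h : V ≤ U) (hW : W ≤ V) (t : Γ(M, V)) :
    hs.coef (hW.trans h) (mres M hW t) = ores hW (hs.coef h t) :=
  hs.coef_eq (by rw [← mres_mres M hW h, ← mres_smul, coef_smul])

theorem smul {r : Γ(X, U)} (hr : IsUnit r) : IsFrame (r • s) := by
  intro V h
  have := (hs V h).comp (Units.mulRight (hr.ores h).unit).bijective
  simpa [Function.comp_def, mul_smul] using this

theorem isUnit_of_smul {r : Γ(X, U)} (h : IsFrame (r • s)) : IsUnit r := by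
  obtain ⟨r', hr'⟩ := (h U le_rfl).surjective s
  simp only [mres_self] at hr'
  refine IsUnit.of_mul_eq_one r' (hs.eq_of_smul_eq (h := le_rfl) ?_)
  rw [mul_comm, mul_smul, mres_self, one_smul, hr']

theorem isUnit_coef {s' : Γ(M, V)} (hs' : IsFrame s') (h : V ≤ U) :
    IsUnit (hs.coef h s') :=
  (hs.res h).isUnit_of_smul (by rwa [coef_smul])

end IsFrame

/-- Frames of `M` on neighbourhoods of all points. -/
structure Framing (M : X.Modules) where
  /-- The domain of the frame at a point. -/
  U : X → X.Opens
  mem : ∀ x, x ∈ U x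
  /-- The frame at a point. -/
  s : ∀ x, Γ(M, U x)
  isFrame : ∀ x, IsFrame (s x)

namespace Framing

variable (F : Framing M)

theorem le_iSup (W : X.Opens) : W ≤ ⨆ x, W ⊓ F.U x :=
  fun x hx => Opens.mem_iSup.mpr ⟨x, hx, F.mem x⟩

/-- The transition function between two frames. -/
def trans (x y : X) : Γ(X, F.U x ⊓ F.U y) :=
  (F.isFrame y).coef inf_le_right (mres M inf_le_left (F.s x))

theorem trans_spec (x y : X) :
    F.trans x y • mres M inf_le_right (F.s y) =
      mres M (inf_le_left : F.U x ⊓ F.U y ≤ F.U x) (F.s x) :=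
  (F.isFrame y).coef_smul _ _

theorem isUnit_trans (x y : X) : IsUnit (F.trans x y) :=
  (F.isFrame y).isUnit_coef ((F.isFrame x).res _) _

/-- Images of the frames compatible with the transition functions. -/
def Compat (t : ∀ x, Γ(N, F.U x)) : Prop :=
  ∀ x y, mres N (inf_le_left : F.U x ⊓ F.U y ≤ F.U x) (t x) =
    F.trans x y • mres N inf_le_right (t y)

theorem compat_app (φ : M ⟶ N) : F.Compat fun x => φ.app (F.U x) (F.s x) := by
  intro x y
  rw [← app_mres, ← app_mres, ← Scheme.Modules.Hom.app_smul, trans_spec]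

variable {F} {t : ∀ x, Γ(N, F.U x)}

theorem Compat.local_eq (ht : F.Compat t) (W : X.Opens) (m : Γ(M, W)) (x y : X) :
    mres N (inf_le_left : (W ⊓ F.U x) ⊓ (W ⊓ F.U y) ≤ _)
        ((F.isFrame x).coef inf_le_right (mres M inf_le_left m) • mres N inf_le_right (t x)) =
      mres N inf_le_right
        ((F.isFrame y).coef inf_le_right (mres M inf_le_left m) • mres N inf_le_right (t y)) := by
  set Z := (W ⊓ F.U x) ⊓ (W ⊓ F.U y)
  have hxy : Z ≤ F.U x ⊓ F.U y := le_inf (inf_le_left.trans inf_le_right)
    (inf_le_right.trans inf_le_right)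
  have hc : ores (inf_le_left : Z ≤ _) ((F.isFrame x).coef inf_le_right (mres M inf_le_left m)) *
      ores hxy (F.trans x y) =
      ores (inf_le_right : Z ≤ _) ((F.isFrame y).coef inf_le_right (mres M inf_le_left m)) := by
    apply (F.isFrame y).eq_of_smul_eq (h := inf_le_right.trans inf_le_right)
    have h1 : mres M hxy (F.trans x y • mres M inf_le_right (F.s y)) =
        mres M hxy (mres M inf_le_left (F.s x)) := by rw [trans_spec]
    simp only [mres_smul, mres_mres] at h1
    rw [mul_smul, h1, ← IsFrame.coef_mres, ← IsFrame.coef_mres, mres_mres, mres_mres,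
      IsFrame.coef_smul, IsFrame.coef_smul]
  have h2 := congrArg (mres N hxy) (ht x y)
  simp only [mres_smul, mres_mres] at h2 ⊢
  rw [h2, ← mul_smul, hc]

/-- The morphism sending the frames to given sections, on one open. -/
def Compat.descFun (ht : F.Compat t) (W : X.Opens) (m : Γ(M, W)) : Γ(N, W) :=
  (exists_glue N (fun x => W ⊓ F.U x) (fun _ => inf_le_left) (F.le_iSup W)
    (fun x => (F.isFrame x).coef inf_le_right (mres M inf_le_left m) • mres N inf_le_right (t x))
    (ht.local_eq W m)).choose

theorem Compat.descFun_spec (ht : F.Compat t) (W : X.Opens) (m : Γ(M, W)) (x : X) :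
    mres N (inf_le_left : W ⊓ F.U x ≤ W) (ht.descFun W m) =
      (F.isFrame x).coef inf_le_right (mres M inf_le_left m) • mres N inf_le_right (t x) :=
  (exists_glue N (fun x => W ⊓ F.U x) (fun _ => inf_le_left) (F.le_iSup W)
    (fun x => (F.isFrame x).coef inf_le_right (mres M inf_le_left m) • mres N inf_le_right (t x))
    (ht.local_eq W m)).choose_spec x

/-- The linear map sending the frames to given sections, on one open. -/
def Compat.descLin (ht : F.Compat t) (W : X.Opens) : Γ(M, W) →ₗ[Γ(X, W)] Γ(N, W) where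
  toFun := ht.descFun W
  map_add' m m' := by
    refine mres_ext N _ (fun _ => inf_le_left) (F.le_iSup W) fun x => ?_
    simp [descFun_spec, add_smul]
  map_smul' r m := by
    refine mres_ext N _ (fun _ => inf_le_left) (F.le_iSup W) fun x => ?_
    simp [descFun_spec, mul_smul]

/-- The morphism of modules sending the frames to given sections. -/
def Compat.desc (ht : F.Compat t) : M ⟶ N :=
  homOfSections M N ht.descLin fun W V h m => by
    refine mres_ext N _ (fun _ => inf_le_left) (F.le_iSup V) fun x => ?_
    have hle : V ⊓ F.U x ≤ W ⊓ F.U x := inf_le_inf_right _ h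
    have h1 := congrArg (mres N hle) (ht.descFun_spec W m x)
    simp only [mres_smul, mres_mres, ← IsFrame.coef_mres] at h1
    change mres N _ (ht.descFun V (mres M h m)) = mres N _ (mres N h (ht.descFun W m))
    rw [descFun_spec, mres_mres, mres_mres, h1]

theorem Compat.desc_app_s (ht : F.Compat t) (x : X) : ht.desc.app (F.U x) (F.s x) = t x := by
  refine mres_ext N _ (fun _ => inf_le_left) (F.le_iSup (F.U x)) fun y => ?_
  change mres N _ (ht.descFun (F.U x) (F.s x)) = _
  rw [descFun_spec]
  exact (ht x y).symm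

variable (F)

/-- Morphisms agreeing on the frames are equal. -/
theorem hom_ext {φ ψ : M ⟶ N} (h : ∀ x, φ.app (F.U x) (F.s x) = ψ.app (F.U x) (F.s x)) :
    φ = ψ := by
  refine Scheme.Modules.hom_ext φ ψ fun W => ?_
  ext m
  refine mres_ext N _ (fun _ => inf_le_left) (F.le_iSup W) fun x => ?_
  rw [← app_mres, ← app_mres,
    ← (F.isFrame x).coef_smul (inf_le_right : W ⊓ F.U x ≤ _) (mres M inf_le_left m),
    Scheme.Modules.Hom.app_smul, Scheme.Modules.Hom.app_smul, app_mres, app_mres, h]

theorem mk_compat_of_isFrame (φ : M ⟶ N) (h : ∀ x, IsFrame (φ.app (F.U x) (F.s x))) :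
    (Framing.mk F.U F.mem (fun x => φ.app (F.U x) (F.s x)) h).Compat F.s := by
  intro x y
  have hx : (Framing.mk F.U F.mem (fun x => φ.app (F.U x) (F.s x)) h).trans x y = F.trans x y :=
    (h y).coef_eq (F.compat_app φ x y).symm
  rw [hx]
  exact (F.trans_spec x y).symm

/-- A morphism sending frames to frames is an isomorphism. -/
theorem isIso_of_isFrame (φ : M ⟶ N) (h : ∀ x, IsFrame (φ.app (F.U x) (F.s x))) : IsIso φ := by
  refine ⟨⟨(F.mk_compat_of_isFrame φ h).desc, F.hom_ext fun x => ?_,
    (Framing.mk F.U F.mem (fun x => φ.app (F.U x) (F.s x)) h).hom_ext fun x => ?_⟩⟩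
  · exact (F.mk_compat_of_isFrame φ h).desc_app_s x
  · exact congrArg (φ.app (F.U x)) ((F.mk_compat_of_isFrame φ h).desc_app_s x)

end Framing

end FermatAgent.Jacobian
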