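import Fermat.Agent.Jacobian.Cocycle.Basic
import Fermat.Prelude.Def_AlgebraicGeometry_RelativePicardFunctor

/-!
# Invertible modules and cocycles

An invertible module has frames near every point, so it is isomorphic to the module of the cocycle
of transition functions; two cocycles have isomorphic modules iff they differ by a coboundary; the
pullback of the module of a cocycle is the module of the pulled back cocycle.
-/

set_option autoImplicit false

noncomputable section

universe u

open CategoryTheory TopologicalSpace AlgebraicGeometry Opposite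

open scoped AlgebraicGeometry

namespace FermatAgent.Jacobian

variable {X Y : Scheme.{u}} {M N : X.Modules}

/-- A frame can be detected locally. -/
theorem isFrame_of_local {U : X.Opens} {s : Γ(M, U)} {ι : Type*} (V : ι → X.Opens)
    (hV : ∀ i, V i ≤ U) (hcov : U ≤ iSup V) (h : ∀ i, IsFrame (mres M (hV i) s)) :
    IsFrame s := by
  intro W hW
  have hcov' : W ≤ ⨆ i, W ⊓ V i := by
    rw [← inf_iSup_eq]
    exact le_inf le_rfl (hW.trans hcov)
  refine ⟨fun r r' hr => ?_, fun t => ?_⟩
  · refine ores_ext _ (fun i => inf_le_left) hcov' fun i => ?_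
    refine (h i).eq_of_smul_eq (h := inf_le_right) ?_
    have h' := congrArg (mres M (inf_le_left : W ⊓ V i ≤ W)) hr
    simpa using h'
  · obtain ⟨r, hr⟩ := exists_oglue (fun i => W ⊓ V i) (fun i => inf_le_left) hcov'
      (fun i => (h i).coef inf_le_right (mres M inf_le_left t)) fun i j => by
        refine (h i).eq_of_smul_eq (h := inf_le_left.trans inf_le_right) ?_
        have h1 : mres M (inf_le_left.trans inf_le_right : (W ⊓ V i) ⊓ (W ⊓ V j) ≤ V i)
            (mres M (hV i) s) = mres M (inf_le_right.trans inf_le_right) (mres M (hV j) s) := by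
          simp
        conv_rhs => rw [h1]
        rw [← IsFrame.coef_mres, ← IsFrame.coef_mres, IsFrame.coef_smul, IsFrame.coef_smul,
          mres_mres, mres_mres]
    refine ⟨r, mres_ext M _ (fun i => inf_le_left) hcov' fun i => ?_⟩
    have h1 := (h i).coef_smul (inf_le_right : W ⊓ V i ≤ _) (mres M inf_le_left t)
    rw [← hr i] at h1
    simpa using h1

theorem IsFrame.map (e : M ≅ N) {U : X.Opens} {s : Γ(M, U)} (hs : IsFrame s) :
    IsFrame (e.hom.app U s) := by
  intro V h
  have hb : Function.Bijective (e.hom.app V) :=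
    ConcreteCategory.bijective_of_isIso (e.hom.app V)
  convert hb.comp (hs V h) using 1
  funext r
  rw [Function.comp_apply, Scheme.Modules.Hom.app_smul, app_mres]

/-- The structure sheaf as a module. -/
def modUnit (X : Scheme.{u}) : X.Modules := SheafOfModules.unit X.ringCatSheaf

/-- A frame of a restricted module gives a frame. -/
theorem exists_isFrame_of_restrict {U : X.Opens} (e : M.restrict U.ι ≅ modUnit U.toScheme) : ∃ s : Γ(M, U), IsFrame s := by
  let s₁ : Γ(M, U.ι ''ᵁ ⊤) := (M.restrictAppIso U.ι ⊤).hom (e.inv.app ⊤ (1 : Γ(U.toScheme, ⊤)))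
  refine ⟨mres M U.ι_image_top.ge s₁, fun V h => ?_⟩
  obtain ⟨W, rfl⟩ : ∃ W : U.toScheme.Opens, U.ι ''ᵁ W = V :=
    ⟨U.ι ⁻¹ᵁ V, by rw [Scheme.Hom.image_preimage_eq_opensRange_inf, Scheme.Opens.opensRange_ι,
      inf_eq_right.mpr h]⟩
  have hb : Function.Bijective fun r : Γ(X, U.ι ''ᵁ W) =>
      (M.restrictAppIso U.ι W).hom (e.inv.app W ((U.ι.appIso W).hom r : Γ(U.toScheme, W))) :=
    (ConcreteCategory.bijective_of_isIso (M.restrictAppIso U.ι W).hom).comp
      ((ConcreteCategory.bijective_of_isIso (e.inv.app W)).comp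
        (ConcreteCategory.bijective_of_isIso (U.ι.appIso W).hom))
  convert hb using 1
  funext r
  have h1 : e.inv.app W ((U.ι.appIso W).hom r : Γ(U.toScheme, W)) =
      (U.ι.appIso W).hom r • e.inv.app W (1 : Γ(U.toScheme, W)) :=
    (congrArg (e.inv.app W) (mul_one ((U.ι.appIso W).hom r : Γ(U.toScheme, W))).symm).trans
      (Scheme.Modules.Hom.app_smul e.inv ((U.ι.appIso W).hom r) _)
  have h2 : e.inv.app W (1 : Γ(U.toScheme, W)) =
      mres (M.restrict U.ι) le_top (e.inv.app ⊤ (1 : Γ(U.toScheme, ⊤))) :=
    (congrArg (e.inv.app W)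
      (ores_one (X := U.toScheme) (le_top : W ≤ ⊤)).symm).trans (app_mres e.inv le_top _)
  rw [h1, h2]
  simp only [Scheme.Modules.smul_restrictAppIso_hom_apply, Iso.hom_inv_id_apply]
  rw [mres_mres]
  rfl

theorem nonempty_framing (hM : Scheme.Modules.IsInvertible M) : Nonempty (Framing M) := by
  choose U hU e using hM.exists_trivialization
  have h : ∀ x, ∃ s : Γ(M, U x), IsFrame s := fun x =>
    exists_isFrame_of_restrict ((Scheme.Modules.restrictFunctorIsoPullback _).app M ≪≫ (e x).some :
      M.restrict (U x).ι ≅ modUnit (U x).toScheme)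
  choose s hs using h
  exact ⟨⟨U, hU, s, hs⟩⟩

namespace Framing

variable (F : Framing M)

/-- The cocycle of transition functions of a framing. -/
def toCocycle : Cocycle X where
  U := F.U
  mem := F.mem
  g := F.trans
  isUnit := F.isUnit_trans
  cocycle x y z W hx hy hz := by
    have h : ∀ (a b : X) (ha : W ≤ F.U a) (hb : W ≤ F.U b),
        ores (le_inf ha hb) (F.trans a b) • mres M hb (F.s b) = mres M ha (F.s a) := by
      intro a b ha hb
      simpa using congrArg (mres M (le_inf ha hb)) (F.trans_spec a b)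
    refine (F.isFrame z).eq_of_smul_eq (h := hz) ?_
    rw [mul_smul, h y z hy hz, h x y hx hy, h x z hx hz]

theorem toCocycle_compat : F.Compat (N := F.toCocycle.toModules) F.toCocycle.frame :=
  fun x y => by
    have h := F.toCocycle.frame_eq_smul x y
    rwa [Cocycle.val, ores_self] at h

/-- A module with a framing is the module of its cocycle. -/
theorem nonempty_iso_toCocycle : Nonempty (M ≅ F.toCocycle.toModules) := by
  have := F.isIso_of_isFrame F.toCocycle_compat.desc fun x => by
    rw [F.toCocycle_compat.desc_app_s]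
    exact F.toCocycle.isFrame_frame x
  exact ⟨asIso F.toCocycle_compat.desc⟩

end Framing

theorem exists_cocycle_iso (hM : Scheme.Modules.IsInvertible M) :
    ∃ c : Cocycle X, Nonempty (M ≅ c.toModules) :=
  let ⟨F⟩ := nonempty_framing hM
  ⟨_, F.nonempty_iso_toCocycle⟩

namespace Cocycle

/-- A coboundary between two cocycles. -/
structure Coboundary (c c' : Cocycle X) where
  /-- The comparison functions. -/
  h : ∀ x z, Γ(X, c.U x ⊓ c'.U z)
  isUnit : ∀ x z, IsUnit (h x z)
  left : ∀ (x y z : X) (W : X.Opens) (hx : W ≤ c.U x) (hy : W ≤ c.U y) (hz : W ≤ c'.U z),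
    c.val x y hx hy * ores (le_inf hy hz) (h y z) = ores (le_inf hx hz) (h x z)
  right : ∀ (x y z : X) (W : X.Opens) (hx : W ≤ c.U x) (hy : W ≤ c'.U y) (hz : W ≤ c'.U z),
    ores (le_inf hx hy) (h x y) * c'.val y z hy hz = ores (le_inf hx hz) (h x z)

namespace Coboundary

variable {c c' d d' : Cocycle X}

/-- Cocycles agreeing where both are defined. -/
def ofAgree (hU : ∀ x, c.U x ≤ c'.U x)
    (h : ∀ (x y : X) (W : X.Opens) (hx : W ≤ c.U x) (hy : W ≤ c.U y),
      c.val x y hx hy = c'.val x y (hx.trans (hU x)) (hy.trans (hU y))) : Coboundary c c' where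
  h x z := c'.val x z (inf_le_left.trans (hU x)) inf_le_right
  isUnit x z := c'.isUnit_val ..
  left x y z W hx hy hz := by simp [h, val_mul_val]
  right x y z W hx hy hz := by simp [val_mul_val]

/-- The product of coboundaries. -/
def mul (a : Coboundary c c') (b : Coboundary d d') : Coboundary (c * d) (c' * d') where
  h x z := ores (inf_le_inf inf_le_left inf_le_left) (a.h x z) *
    ores (inf_le_inf inf_le_right inf_le_right) (b.h x z)
  isUnit x z := ((a.isUnit x z).ores _).mul ((b.isUnit x z).ores _)
  left x y z W hx hy hz := by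
    simp only [mul_val, ores_mul, ores_ores]
    rw [mul_mul_mul_comm,
      a.left x y z W (hx.trans inf_le_left) (hy.trans inf_le_left) (hz.trans inf_le_left),
      b.left x y z W (hx.trans inf_le_right) (hy.trans inf_le_right) (hz.trans inf_le_right)]
  right x y z W hx hy hz := by
    simp only [mul_val, ores_mul, ores_ores]
    rw [mul_mul_mul_comm,
      a.right x y z W (hx.trans inf_le_left) (hy.trans inf_le_left) (hz.trans inf_le_left),
      b.right x y z W (hx.trans inf_le_right) (hy.trans inf_le_right) (hz.trans inf_le_right)]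

/-- The pullback of a coboundary. -/
def pull {Y : Scheme.{u}} (f : Y ⟶ X) (a : Coboundary c c') :
    Coboundary (c.pull f) (c'.pull f) where
  h x z := opull f (U := c.U (f x) ⊓ c'.U (f z))
    (W := f ⁻¹ᵁ c.U (f x) ⊓ f ⁻¹ᵁ c'.U (f z)) le_rfl (a.h (f x) (f z))
  isUnit x z := isUnit_opull f _ (a.isUnit _ _)
  left x y z W hx hy hz := by
    have hW : W ≤ f ⁻¹ᵁ (c.U (f x) ⊓ c.U (f y) ⊓ c'.U (f z)) := le_inf (le_inf hx hy) hz
    have h := congrArg (opull f hW) (a.left (f x) (f y) (f z) _
      (inf_le_left.trans inf_le_left) (inf_le_left.trans inf_le_right) inf_le_right)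
    simp only [opull_mul, opull_ores, val] at h
    rw [pull_val]
    exact (congrArg₂ (· * ·) rfl (ores_opull f _ (le_inf hy hz) _)).trans
      (h.trans (ores_opull f _ (le_inf hx hz) _).symm)
  right x y z W hx hy hz := by
    have hW : W ≤ f ⁻¹ᵁ (c.U (f x) ⊓ c'.U (f y) ⊓ c'.U (f z)) := le_inf (le_inf hx hy) hz
    have h := congrArg (opull f hW) (a.right (f x) (f y) (f z) _
      (inf_le_left.trans inf_le_left) (inf_le_left.trans inf_le_right) inf_le_right)
    simp only [opull_mul, opull_ores, val] at h
    rw [pull_val]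
    exact (congrArg₂ (· * ·) (ores_opull f _ (le_inf hx hy) _) rfl).trans
      (h.trans (ores_opull f _ (le_inf hx hz) _).symm)

theorem compat (a : Coboundary c c') (x : X) :
    ∀ z w, mres c'.toModules (inf_le_left : (c.U x ⊓ c'.U z) ⊓ (c.U x ⊓ c'.U w) ≤ _)
        (a.h x z • mres c'.toModules inf_le_right (c'.frame z)) =
      mres c'.toModules inf_le_right (a.h x w • mres c'.toModules inf_le_right (c'.frame w)) := by
  intro z w
  have h := congrArg (mres c'.toModules (le_inf (inf_le_left.trans inf_le_right)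
    (inf_le_right.trans inf_le_right) : (c.U x ⊓ c'.U z) ⊓ (c.U x ⊓ c'.U w) ≤ c'.U z ⊓ c'.U w))
    (c'.frame_eq_smul z w)
  simp only [mres_smul, mres_mres, ores_val] at h ⊢
  rw [h, ← mul_smul, a.right x z w _ (inf_le_left.trans inf_le_left)
    (inf_le_left.trans inf_le_right) (inf_le_right.trans inf_le_right)]

/-- A coboundary gives an isomorphism of modules. -/
theorem nonempty_iso (a : Coboundary c c') : Nonempty (c.toModules ≅ c'.toModules) := by
  have hcov : ∀ x, c.U x ≤ ⨆ z, c.U x ⊓ c'.U z :=
    fun x p hp => Opens.mem_iSup.mpr ⟨p, hp, c'.mem p⟩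
  have hg := fun x => exists_glue c'.toModules _ (fun z => inf_le_left) (hcov x) _ (a.compat x)
  choose t ht using hg
  have hc : c.framing.Compat (N := c'.toModules) t := by
    intro x y
    rw [framing_trans]
    change mres c'.toModules (inf_le_left : c.U x ⊓ c.U y ≤ c.U x) (t x) =
      c.g x y • mres c'.toModules (inf_le_right : c.U x ⊓ c.U y ≤ c.U y) (t y)
    refine mres_ext c'.toModules (fun z => (c.U x ⊓ c.U y) ⊓ c'.U z) (fun z => inf_le_left)
      (fun p hp => Opens.mem_iSup.mpr ⟨p, hp, c'.mem p⟩) fun z => ?_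
    have hx := congrArg (mres c'.toModules
      (inf_le_inf_right _ inf_le_left : (c.U x ⊓ c.U y) ⊓ c'.U z ≤ _)) (ht x z)
    have hy := congrArg (mres c'.toModules
      (inf_le_inf_right _ inf_le_right : (c.U x ⊓ c.U y) ⊓ c'.U z ≤ _)) (ht y z)
    simp only [mres_smul, mres_mres] at hx hy ⊢
    erw [hx, hy]
    rw [← mul_smul, ← a.left x y z _ (inf_le_left.trans inf_le_left)
      (inf_le_left.trans inf_le_right) inf_le_right]
    rfl
  have := c.framing.isIso_of_isFrame hc.desc fun x => by
    rw [hc.desc_app_s]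
    refine isFrame_of_local (fun z => c.U x ⊓ c'.U z) (fun z => inf_le_left) (hcov x) fun z => ?_
    erw [ht x z]
    exact ((c'.isFrame_frame z).res _).smul (a.isUnit x z)
  exact ⟨asIso hc.desc⟩

end Coboundary

variable {c c' : Cocycle X}

/-- An isomorphism of modules gives a coboundary. -/
theorem exists_coboundary (e : c.toModules ≅ c'.toModules) : Nonempty (Coboundary c c') := by
  have ht : ∀ x, IsFrame (e.hom.app (c.U x) (c.frame x)) := fun x => (c.isFrame_frame x).map e
  have key : ∀ (x z : X) (W : X.Opens) (hx : W ≤ c.U x) (hz : W ≤ c'.U z),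
      ores (le_inf hx hz) ((c'.isFrame_frame z).coef inf_le_right
          (mres c'.toModules (inf_le_left : c.U x ⊓ c'.U z ≤ _) (e.hom.app _ (c.frame x)))) •
        mres c'.toModules hz (c'.frame z) = mres c'.toModules hx (e.hom.app _ (c.frame x)) := by
    intro x z W hx hz
    simpa [-IsFrame.coef_smul] using congrArg (mres c'.toModules (le_inf hx hz))
      ((c'.isFrame_frame z).coef_smul inf_le_right
        (mres c'.toModules (inf_le_left : c.U x ⊓ c'.U z ≤ _) (e.hom.app _ (c.frame x))))
  refine ⟨⟨fun x z => (c'.isFrame_frame z).coef inf_le_right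
    (mres c'.toModules inf_le_left (e.hom.app _ (c.frame x))),
    fun x z => (c'.isFrame_frame z).isUnit_coef ((ht x).res _) _, fun x y z W hx hy hz => ?_,
    fun x y z W hx hy hz => ?_⟩⟩
  · refine (c'.isFrame_frame z).eq_of_smul_eq (h := hz) ?_
    rw [mul_smul, key y z W hy hz, key x z W hx hz]
    have h := congrArg (mres c.toModules (le_inf hx hy)) (c.frame_eq_smul x y)
    simp only [mres_smul, mres_mres, ores_val] at h
    rw [← app_mres, ← app_mres, ← Scheme.Modules.Hom.app_smul, h]
  · refine (c'.isFrame_frame z).eq_of_smul_eq (h := hz) ?_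
    have h := congrArg (mres c'.toModules (le_inf hy hz)) (c'.frame_eq_smul y z)
    simp only [mres_smul, mres_mres, ores_val] at h
    rw [mul_smul, ← h, key x y W hx hy, key x z W hx hz]

theorem nonempty_iso_iff :
    Nonempty (c.toModules ≅ c'.toModules) ↔ Nonempty (Coboundary c c') :=
  ⟨fun ⟨e⟩ => exists_coboundary e, fun ⟨a⟩ => a.nonempty_iso⟩

theorem isInvertible_toModules (c : Cocycle X) : Scheme.Modules.IsInvertible c.toModules := by
  refine ⟨fun x => ⟨c.U x, c.mem x, ⟨?_⟩⟩⟩
  refine ((Scheme.Modules.restrictFunctorIsoPullback (c.U x).ι).app c.toModules).symm ≪≫ ?_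
  have hle : ∀ W : (c.U x).toScheme.Opens, (c.U x).ι ''ᵁ W ≤ c.U x := fun W =>
    ((c.U x).ι.image_mono le_top).trans (c.U x).ι_image_top.le
  let φ : modUnit (c.U x).toScheme ⟶ c.toModules.restrict (c.U x).ι :=
    homOfSections (X := (c.U x).toScheme) (modUnit (c.U x).toScheme)
      (c.toModules.restrict (c.U x).ι)
      (fun W => LinearMap.toSpanSingleton Γ((c.U x).toScheme, W) _
        ((c.toModules.restrictAppIso (c.U x).ι W).inv (mres c.toModules (hle W) (c.frame x))))
      fun W W' h s => by
        change ores h s • (c.toModules.restrictAppIso (c.U x).ι W').inv (mres c.toModules _ _) =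
          mres _ h ((show Γ((c.U x).toScheme, W) from s) •
            (c.toModules.restrictAppIso (c.U x).ι W).inv (mres c.toModules _ _))
        rw [mres_smul]
        congr 1
        exact (mres_mres c.toModules ((c.U x).ι.image_mono h) (hle W) (c.frame x)).symm
  haveI : IsIso φ := by
    rw [Scheme.Modules.Hom.isIso_iff_isIso_app]
    intro W
    refine (ConcreteCategory.isIso_iff_bijective _).mpr ?_
    suffices h : Function.Bijective fun r : Γ((c.U x).toScheme, W) => φ.app W r from h
    convert ((ConcreteCategory.bijective_of_isIso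
      (c.toModules.restrictAppIso (c.U x).ι W).inv).comp (c.isFrame_frame x _ (hle W))).comp
        (ConcreteCategory.bijective_of_isIso ((c.U x).ι.appIso W).inv) using 1
    funext r
    simp only [Function.comp_apply, Scheme.Modules.smul_restrictAppIso_inv_apply,
      Iso.inv_hom_id_apply]
    rfl
  exact (asIso φ).symm

/-- The pullback of the module of a cocycle. -/
theorem nonempty_pullback_iso (f : X ⟶ Y) (c : Cocycle Y) :
    Nonempty ((Scheme.Modules.pullback f).obj c.toModules ≅ (c.pull f).toModules) := by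
  let t : ∀ y, Γ((Scheme.Modules.pushforward f).obj (c.pull f).toModules, c.U y) := fun y =>
    show (c.pull f).sect (f ⁻¹ᵁ c.U y) from
      ⟨fun z => opull f (U := c.U y ⊓ c.U (f z)) (W := f ⁻¹ᵁ c.U y ⊓ f ⁻¹ᵁ c.U (f z)) le_rfl
        (c.g y (f z)), fun z w V hV hz hw => by
        have hW : V ≤ f ⁻¹ᵁ (c.U y ⊓ c.U (f z) ⊓ c.U (f w)) := le_inf (le_inf hV hz) hw
        have h := congrArg (opull f hW) (c.val_mul_val y (f z) (f w)
          (W := c.U y ⊓ c.U (f z) ⊓ c.U (f w))
          (inf_le_left.trans inf_le_left) (inf_le_left.trans inf_le_right) inf_le_right)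
        simp only [opull_mul, opull_ores, val] at h
        rw [pull_val]
        exact (ores_opull f _ (le_inf hV hw) _).trans (h.symm.trans
          (congrArg₂ (· * ·) (ores_opull f _ (le_inf hV hz) _).symm rfl))⟩
  have hc : c.framing.Compat (N := (Scheme.Modules.pushforward f).obj (c.pull f).toModules) t := by
    intro y y'
    rw [framing_trans]
    refine Subtype.ext (funext fun z => ?_)
    have hW : f ⁻¹ᵁ (c.U y ⊓ c.U y') ⊓ f ⁻¹ᵁ c.U (f z) ≤
        f ⁻¹ᵁ (c.U y ⊓ c.U y' ⊓ c.U (f z)) := le_rfl
    have h := congrArg (opull f hW) (c.val_mul_val y y' (f z)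
      (W := c.U y ⊓ c.U y' ⊓ c.U (f z))
      (inf_le_left.trans inf_le_left) (inf_le_left.trans inf_le_right) inf_le_right)
    simp only [opull_mul, opull_ores, val] at h
    refine (ores_opull f _ (inf_le_inf_right _ (f.preimage_mono inf_le_left)) _).trans
      (h.symm.trans ?_)
    exact (congrArg₂ (· * ·) rfl
      (ores_opull f _ (inf_le_inf_right _ (f.preimage_mono inf_le_right)) _)).symm
  have htf : ∀ y, IsFrame (M := (c.pull f).toModules) (U := f ⁻¹ᵁ c.U y) (t y) := by
    intro y
    refine isFrame_of_local (fun z => f ⁻¹ᵁ c.U y ⊓ (c.pull f).U z) (fun z => inf_le_left)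
      (fun p hp => Opens.mem_iSup.mpr ⟨p, hp, (c.pull f).mem p⟩) fun z => ?_
    have he : mres (c.pull f).toModules (inf_le_left : f ⁻¹ᵁ c.U y ⊓ (c.pull f).U z ≤ _) (t y) =
        (show Γ(X, f ⁻¹ᵁ c.U y ⊓ (c.pull f).U z) from
            opull f (U := c.U y ⊓ c.U (f z)) (W := f ⁻¹ᵁ c.U y ⊓ f ⁻¹ᵁ c.U (f z)) le_rfl
              (c.g y (f z))) •
          mres (c.pull f).toModules
            (inf_le_right : f ⁻¹ᵁ c.U y ⊓ (c.pull f).U z ≤ (c.pull f).U z)
            ((c.pull f).frame z) := by
      refine Subtype.ext (funext fun w => ?_)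
      have hW : (f ⁻¹ᵁ c.U y ⊓ f ⁻¹ᵁ c.U (f z)) ⊓ f ⁻¹ᵁ c.U (f w) ≤
          f ⁻¹ᵁ (c.U y ⊓ c.U (f z) ⊓ c.U (f w)) := le_rfl
      have h := congrArg (opull f hW) (c.val_mul_val y (f z) (f w)
        (W := c.U y ⊓ c.U (f z) ⊓ c.U (f w))
        (inf_le_left.trans inf_le_left) (inf_le_left.trans inf_le_right) inf_le_right)
      simp only [opull_mul, opull_ores, val] at h
      refine (ores_opull f _ (inf_le_inf_right _ inf_le_left) _).trans (h.symm.trans ?_)
      refine (congrArg₂ (· * ·) (ores_opull f _ inf_le_left _) ?_).symm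
      change ores (inf_le_inf_right _ inf_le_right : _ ≤ (c.pull f).U z ⊓ (c.pull f).U w)
        ((c.pull f).val z w inf_le_left inf_le_right) = _
      rw [ores_val, pull_val]
      rfl
    rw [he]
    exact (((c.pull f).isFrame_frame z).res _).smul (isUnit_opull f _ (c.isUnit _ _))
  obtain ⟨E⟩ := nonempty_framing (c.isInvertible_toModules.pullback f)
  let E' : Framing ((Scheme.Modules.pullback f).obj c.toModules) :=
    { U := fun x => E.U x ⊓ f ⁻¹ᵁ c.U (f x)
      mem := fun x => ⟨E.mem x, c.mem (f x)⟩
      s := fun x => mres _ inf_le_left (E.s x)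
      isFrame := fun x => (E.isFrame x).res _ }
  set β := ((Scheme.Modules.pullbackPushforwardAdjunction f).homEquiv c.toModules
    (c.pull f).toModules).symm hc.desc with hβ
  have : IsIso β := by
    refine E'.isIso_of_isFrame β fun x => ?_
    set W := E.U x ⊓ f ⁻¹ᵁ c.U (f x)
    have hp : β.app W (mres _ inf_le_right (pullSec f c.toModules (c.frame (f x)))) =
        mres (c.pull f).toModules inf_le_right (t (f x)) := by
      rw [app_mres, hβ, homEquiv_symm_app_pullSec]
      exact congrArg _ (hc.desc_app_s (f x))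
    set b := (E'.isFrame x).coef (le_refl W)
      (mres _ inf_le_right (pullSec f c.toModules (c.frame (f x)))) with hb
    have htW := (htf (f x)).res (inf_le_right : W ≤ _)
    set a := htW.coef (le_refl W) (β.app W (E'.s x))
    have ha : a • mres (c.pull f).toModules inf_le_right (t (f x)) = β.app W (E'.s x) := by
      simpa using htW.coef_smul (le_refl W) (β.app W (E'.s x))
    have hbe : b • E'.s x = mres _ inf_le_right (pullSec f c.toModules (c.frame (f x))) := by
      simpa using (E'.isFrame x).coef_smul (le_refl W)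
        (mres _ inf_le_right (pullSec f c.toModules (c.frame (f x))))
    have hab : b * a = 1 := by
      refine htW.eq_of_smul_eq (h := le_refl W) ?_
      rw [mres_self, one_smul, mul_smul, ha, ← Scheme.Modules.Hom.app_smul, hbe, hp]
    rw [← ha]
    exact htW.smul (IsUnit.of_mul_eq_one b (by rw [mul_comm, hab]))
  exact ⟨asIso β⟩

end Cocycle

end FermatAgent.Jacobian
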