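import Fermat.Agent.Jacobian.Cocycle.Cover

/-!
# Patching rigidified cocycles

`q : X ⟶ T` has a section `σ` along which units of `X` are determined (`Rigid`). Cocycles on
`q ⁻¹ V` trivialised along `σ` have a unique normalised comparison, so they patch.
-/

set_option autoImplicit false
set_option backward.isDefEq.respectTransparency false

noncomputable section

universe u

open CategoryTheory TopologicalSpace AlgebraicGeometry Opposite

open scoped AlgebraicGeometry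

namespace FermatAgent.Jacobian

open Cocycle (opull)

variable {X T : Scheme.{u}} (q : X ⟶ T) (σ : T ⟶ X)

/-- Units over `q ⁻¹ V` equal to one along the section are one. -/
def Rigid : Prop :=
  ∀ (V : T.Opens) (hV : V ≤ σ ⁻¹ᵁ q ⁻¹ᵁ V) (r : Γ(X, q ⁻¹ᵁ V)),
    IsUnit r → opull σ hV r = 1 → r = 1

theorem le_section_preimage (hσ : σ ≫ q = 𝟙 T) (V : T.Opens) : V ≤ σ ⁻¹ᵁ q ⁻¹ᵁ V := fun p hp => by
  have h : q (σ p) = p := congrArg (fun f : T ⟶ T => f p) hσ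
  change q (σ p) ∈ V
  rwa [h]

theorem opull_section_opull (hσ : σ ≫ q = 𝟙 T) {V : T.Opens} {W : X.Opens} {W' : T.Opens}
    (h : W ≤ q ⁻¹ᵁ V) (h' : W' ≤ σ ⁻¹ᵁ W) (hW : W' ≤ V) (r : Γ(T, V)) :
    opull σ h' (opull q h r) = ores hW r := by
  rw [Cocycle.opull_opull, opull_congr hσ]
  exact Cocycle.opull_id _ r

/-- A cocycle on `q ⁻¹ V` with a trivialisation along the section. -/
structure Piece (q : X ⟶ T) (σ : T ⟶ X) (V : T.Opens) where
  /-- The index type. -/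
  ι : Type u
  /-- The members of the cover. -/
  U : ι → X.Opens
  le : ∀ a, U a ≤ q ⁻¹ᵁ V
  cover : ∀ x ∈ q ⁻¹ᵁ V, ∃ a, x ∈ U a
  /-- The transition functions. -/
  g : ∀ a b, Γ(X, U a ⊓ U b)
  isUnit : ∀ a b, IsUnit (g a b)
  cocycle : ∀ (a b e : ι) (W : X.Opens) (ha : W ≤ U a) (hb : W ≤ U b) (he : W ≤ U e),
    ores (le_inf ha hb) (g a b) * ores (le_inf hb he) (g b e) = ores (le_inf ha he) (g a e)
  /-- The trivialisation along the section. -/
  τ : ∀ a, Γ(T, σ ⁻¹ᵁ U a)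
  isUnit_τ : ∀ a, IsUnit (τ a)
  τ_spec : ∀ (a b : ι) (W : T.Opens) (ha : W ≤ σ ⁻¹ᵁ U a) (hb : W ≤ σ ⁻¹ᵁ U b),
    opull σ (le_inf ha hb : W ≤ σ ⁻¹ᵁ (U a ⊓ U b)) (g a b) * ores hb (τ b) = ores ha (τ a)

/-- A comparison of two pieces. -/
structure PCmp {V V' : T.Opens} (G : Piece q σ V) (G' : Piece q σ V') where
  /-- The comparison functions. -/
  h : ∀ a b, Γ(X, G.U a ⊓ G'.U b)
  isUnit : ∀ a b, IsUnit (h a b)
  left : ∀ (a a' : G.ι) (b : G'.ι) (W : X.Opens) (ha : W ≤ G.U a) (ha' : W ≤ G.U a')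
    (hb : W ≤ G'.U b),
    ores (le_inf ha ha') (G.g a a') * ores (le_inf ha' hb) (h a' b) = ores (le_inf ha hb) (h a b)
  right : ∀ (a : G.ι) (b b' : G'.ι) (W : X.Opens) (ha : W ≤ G.U a) (hb : W ≤ G'.U b)
    (hb' : W ≤ G'.U b'),
    ores (le_inf ha hb) (h a b) * ores (le_inf hb hb') (G'.g b b') = ores (le_inf ha hb') (h a b')

variable {q σ}

/-- A comparison compatible with the trivialisations along the section. -/
def PCmp.Normalised {V V' : T.Opens} {G : Piece q σ V} {G' : Piece q σ V'} (e : PCmp q σ G G') :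
    Prop :=
  ∀ (a : G.ι) (b : G'.ι) (W : T.Opens) (ha : W ≤ σ ⁻¹ᵁ G.U a) (hb : W ≤ σ ⁻¹ᵁ G'.U b),
    opull σ (le_inf ha hb : W ≤ σ ⁻¹ᵁ (G.U a ⊓ G'.U b)) (e.h a b) * ores hb (G'.τ b) =
      ores ha (G.τ a)

variable {V V' V'' : T.Opens} {G : Piece q σ V} {G' : Piece q σ V'} {G'' : Piece q σ V''}

/-- Any comparison can be normalised. -/
theorem PCmp.exists_normalised (hσ : σ ≫ q = 𝟙 T) (e : PCmp q σ G G') :
    ∃ e' : PCmp q σ G G', e'.Normalised := by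
  have hk : ∀ p : G.ι × G'.ι, IsUnit (opull σ (U := G.U p.1 ⊓ G'.U p.2)
      (W := σ ⁻¹ᵁ G.U p.1 ⊓ σ ⁻¹ᵁ G'.U p.2) le_rfl (e.h p.1 p.2) *
        ores (inf_le_right : σ ⁻¹ᵁ G.U p.1 ⊓ σ ⁻¹ᵁ G'.U p.2 ≤ _) (G'.τ p.2)) :=
    fun p => (Cocycle.isUnit_opull σ _ (e.isUnit _ _)).mul ((G'.isUnit_τ _).ores _)
  let r : ∀ p : G.ι × G'.ι, Γ(T, σ ⁻¹ᵁ G.U p.1 ⊓ σ ⁻¹ᵁ G'.U p.2) := fun p =>
    ores (inf_le_left : σ ⁻¹ᵁ G.U p.1 ⊓ σ ⁻¹ᵁ G'.U p.2 ≤ _) (G.τ p.1) * ↑(hk p).unit⁻¹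
  have hle : ∀ p : G.ι × G'.ι, σ ⁻¹ᵁ G.U p.1 ⊓ σ ⁻¹ᵁ G'.U p.2 ≤ V ⊓ V' := fun p x hx => by
    have hx' : q (σ x) = x := congrArg (fun f : T ⟶ T => f x) hσ
    exact ⟨hx' ▸ G.le _ hx.1, hx' ▸ G'.le _ hx.2⟩
  have hspec : ∀ (a : G.ι) (b : G'.ι) (W : T.Opens) (ha : W ≤ σ ⁻¹ᵁ G.U a)
      (hb : W ≤ σ ⁻¹ᵁ G'.U b),
      ores (le_inf ha hb) (r (a, b)) *
        (opull σ (le_inf ha hb : W ≤ σ ⁻¹ᵁ (G.U a ⊓ G'.U b)) (e.h a b) * ores hb (G'.τ b)) =
        ores ha (G.τ a) := by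
    intro a b W ha hb
    have h := congrArg (ores (le_inf ha hb : W ≤ σ ⁻¹ᵁ G.U a ⊓ σ ⁻¹ᵁ G'.U b))
      (hk (a, b)).val_inv_mul
    rw [ores_mul, ores_mul, ores_one, Cocycle.ores_opull, ores_ores] at h
    rw [ores_mul, ores_ores, mul_assoc, h, mul_one]
  obtain ⟨w, hwu, hw⟩ := exists_isUnit_oglue (W := V ⊓ V') _ hle
    (fun x hx => by
      have hx' : q (σ x) = x := congrArg (fun f : T ⟶ T => f x) hσ
      obtain ⟨a, ha⟩ := G.cover (σ x) (show q (σ x) ∈ V by rw [hx']; exact hx.1)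
      obtain ⟨b, hb⟩ := G'.cover (σ x) (show q (σ x) ∈ V' by rw [hx']; exact hx.2)
      exact Opens.mem_iSup.mpr ⟨(a, b), ha, hb⟩)
    r (fun p => ((G.isUnit_τ _).ores _).mul (Units.isUnit _)) fun ⟨a, b⟩ ⟨a', b'⟩ => by
      set W := (σ ⁻¹ᵁ G.U a ⊓ σ ⁻¹ᵁ G'.U b) ⊓ (σ ⁻¹ᵁ G.U a' ⊓ σ ⁻¹ᵁ G'.U b')
      have ha : W ≤ σ ⁻¹ᵁ G.U a := inf_le_left.trans inf_le_left
      have hb : W ≤ σ ⁻¹ᵁ G'.U b := inf_le_left.trans inf_le_right
      have ha' : W ≤ σ ⁻¹ᵁ G.U a' := inf_le_right.trans inf_le_left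
      have hb' : W ≤ σ ⁻¹ᵁ G'.U b' := inf_le_right.trans inf_le_right
      have h1 := hspec a b W ha hb
      have h2 := hspec a' b' W ha' hb'
      have l := congrArg (opull σ (le_inf (le_inf ha ha') hb :
        W ≤ σ ⁻¹ᵁ (G.U a ⊓ G.U a' ⊓ G'.U b))) (e.left a a' b _
          (inf_le_left.trans inf_le_left) (inf_le_left.trans inf_le_right) inf_le_right)
      have rr := congrArg (opull σ (le_inf (le_inf ha' hb) hb' :
        W ≤ σ ⁻¹ᵁ (G.U a' ⊓ G'.U b ⊓ G'.U b'))) (e.right a' b b' _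
          (inf_le_left.trans inf_le_left) (inf_le_left.trans inf_le_right) inf_le_right)
      simp only [Cocycle.opull_mul, Cocycle.opull_ores] at l rr
      have t := G.τ_spec a a' W ha ha'
      have t' := G'.τ_spec b b' W hb hb'
      refine (((Cocycle.isUnit_opull σ (le_inf ha hb : W ≤ σ ⁻¹ᵁ (G.U a ⊓ G'.U b))
        (e.isUnit a b)).mul ((G'.isUnit_τ b).ores hb))).mul_right_cancel (h1.trans ?_)
      rw [← t, ← h2, ← rr, ← t', ← l]
      ring
  refine ⟨⟨fun a b => e.h a b * opull q (le_inf (inf_le_left.trans (G.le a))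
      (inf_le_right.trans (G'.le b)) : G.U a ⊓ G'.U b ≤ q ⁻¹ᵁ (V ⊓ V')) w,
    fun a b => (e.isUnit a b).mul (Cocycle.isUnit_opull q _ hwu), fun a a' b W ha ha' hb => ?_,
    fun a b b' W ha hb hb' => ?_⟩, fun a b W ha hb => ?_⟩
  · rw [ores_mul, ores_mul, Cocycle.ores_opull, Cocycle.ores_opull, ← mul_assoc, e.left a a' b W ha ha' hb]
  · rw [ores_mul, ores_mul, Cocycle.ores_opull, Cocycle.ores_opull, ← e.right a b b' W ha hb hb']
    ring
  · rw [Cocycle.opull_mul, opull_section_opull q σ hσ _ _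
      ((le_inf ha hb).trans (hle (a, b))), ← hspec a b W ha hb, ← hw (a, b), ores_ores]
    ring

/-- Normalised comparisons compose to each other. -/
theorem PCmp.Normalised.mul_eq (hσ : σ ≫ q = 𝟙 T) (hr : Rigid q σ) {e : PCmp q σ G G'}
    {e' : PCmp q σ G' G''} {e'' : PCmp q σ G G''} (he : e.Normalised) (he' : e'.Normalised)
    (he'' : e''.Normalised) (a : G.ι) (b : G'.ι) (c : G''.ι) (W : X.Opens) (ha : W ≤ G.U a)
    (hb : W ≤ G'.U b) (hc : W ≤ G''.U c) :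
    ores (le_inf ha hb) (e.h a b) * ores (le_inf hb hc) (e'.h b c) =
      ores (le_inf ha hc) (e''.h a c) := by
  let U : G.ι × G'.ι × G''.ι → X.Opens := fun p => G.U p.1 ⊓ G'.U p.2.1 ⊓ G''.U p.2.2
  have la : ∀ p, U p ≤ G.U p.1 := fun p => inf_le_left.trans inf_le_left
  have lb : ∀ p, U p ≤ G'.U p.2.1 := fun p => inf_le_left.trans inf_le_right
  have lc : ∀ p, U p ≤ G''.U p.2.2 := fun p => inf_le_right
  have hu : ∀ p, IsUnit (ores (le_inf (la p) (lc p)) (e''.h p.1 p.2.2)) :=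
    fun p => (e''.isUnit _ _).ores _
  let r : ∀ p, Γ(X, U p) := fun p => ores (le_inf (la p) (lb p)) (e.h p.1 p.2.1) *
    ores (le_inf (lb p) (lc p)) (e'.h p.2.1 p.2.2) * ↑(hu p).unit⁻¹
  have hspec : ∀ p (W : X.Opens) (hW : W ≤ U p),
      ores hW (r p) * ores (hW.trans (le_inf (la p) (lc p))) (e''.h p.1 p.2.2) =
        ores (hW.trans (le_inf (la p) (lb p))) (e.h p.1 p.2.1) *
          ores (hW.trans (le_inf (lb p) (lc p))) (e'.h p.2.1 p.2.2) := by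
    intro p W hW
    have h := congrArg (ores hW) (hu p).val_inv_mul
    rw [ores_mul, ores_one, ores_ores] at h
    rw [ores_mul, ores_mul, ores_ores, ores_ores, mul_assoc, h, mul_one]
  have hle : ∀ p, U p ≤ q ⁻¹ᵁ (V ⊓ V' ⊓ V'') := fun p =>
    le_inf (le_inf ((la p).trans (G.le _)) ((lb p).trans (G'.le _))) ((lc p).trans (G''.le _))
  obtain ⟨t, htu, ht⟩ := exists_isUnit_oglue _ hle
    (fun x hx => by
      obtain ⟨a, ha⟩ := G.cover x hx.1.1
      obtain ⟨b, hb⟩ := G'.cover x hx.1.2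
      obtain ⟨c, hc⟩ := G''.cover x hx.2
      exact Opens.mem_iSup.mpr ⟨(a, b, c), ⟨ha, hb⟩, hc⟩)
    r (fun p => (((e.isUnit _ _).ores _).mul ((e'.isUnit _ _).ores _)).mul (Units.isUnit _))
    fun p p' => by
      set W := U p ⊓ U p'
      have h1 := hspec p W inf_le_left
      have h2 := hspec p' W inf_le_right
      have l1 := e.left p.1 p'.1 p'.2.1 W (inf_le_left.trans (la p)) (inf_le_right.trans (la p'))
        (inf_le_right.trans (lb p'))
      have r1 := e.right p.1 p.2.1 p'.2.1 W (inf_le_left.trans (la p)) (inf_le_left.trans (lb p))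
        (inf_le_right.trans (lb p'))
      have l2 := e'.left p.2.1 p'.2.1 p.2.2 W (inf_le_left.trans (lb p))
        (inf_le_right.trans (lb p')) (inf_le_left.trans (lc p))
      have r2 := e'.right p'.2.1 p.2.2 p'.2.2 W (inf_le_right.trans (lb p'))
        (inf_le_left.trans (lc p)) (inf_le_right.trans (lc p'))
      have l3 := e''.left p.1 p'.1 p'.2.2 W (inf_le_left.trans (la p))
        (inf_le_right.trans (la p')) (inf_le_right.trans (lc p'))
      have r3 := e''.right p.1 p.2.2 p'.2.2 W (inf_le_left.trans (la p)) (inf_le_left.trans (lc p))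
        (inf_le_right.trans (lc p'))
      refine ((e''.isUnit _ _).ores (inf_le_left.trans (le_inf (la p) (lc p)) :
        W ≤ G.U p.1 ⊓ G''.U p.2.2)).mul_right_cancel (h1.trans ?_)
      refine ((G''.isUnit p.2.2 p'.2.2).ores (le_inf (inf_le_left.trans (lc p))
        (inf_le_right.trans (lc p')) : W ≤ _)).mul_right_cancel ?_
      rw [mul_assoc, mul_assoc (ores inf_le_right _), r3, ← l3, ← l2]
      calc _ = (ores (le_inf (inf_le_left.trans (la p)) (inf_le_left.trans (lb p)))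
              (e.h p.1 p.2.1) *
            ores (le_inf (inf_le_left.trans (lb p)) (inf_le_right.trans (lb p')))
              (G'.g p.2.1 p'.2.1)) *
            (ores (le_inf (inf_le_right.trans (lb p')) (inf_le_left.trans (lc p)))
              (e'.h p'.2.1 p.2.2) *
            ores (le_inf (inf_le_left.trans (lc p)) (inf_le_right.trans (lc p')))
              (G''.g p.2.2 p'.2.2)) := by ring
        _ = ores (le_inf (inf_le_left.trans (la p)) (inf_le_right.trans (la p'))) (G.g p.1 p'.1) *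
            (ores (le_inf (inf_le_right.trans (la p')) (inf_le_right.trans (lb p')))
              (e.h p'.1 p'.2.1) *
            ores (le_inf (inf_le_right.trans (lb p')) (inf_le_right.trans (lc p')))
              (e'.h p'.2.1 p'.2.2)) := by
          rw [r1, r2, ← l1]
          ring
        _ = _ := by
          rw [← h2]
          ring
  have ht1 : t = 1 := by
    refine hr _ (le_section_preimage q σ hσ _) t htu ?_
    refine ores_ext (fun p => (V ⊓ V' ⊓ V'') ⊓ σ ⁻¹ᵁ U p) (fun _ => inf_le_left)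
      (fun x hx => by
        have h' : σ x ∈ q ⁻¹ᵁ (V ⊓ V' ⊓ V'') := le_section_preimage q σ hσ _ hx
        obtain ⟨a, ha⟩ := G.cover (σ x) h'.1.1
        obtain ⟨b, hb⟩ := G'.cover (σ x) h'.1.2
        obtain ⟨c, hc⟩ := G''.cover (σ x) h'.2
        exact Opens.mem_iSup.mpr ⟨(a, b, c), hx, ⟨ha, hb⟩, hc⟩) fun p => ?_
    rw [ores_one, Cocycle.ores_opull]
    have h := congrArg (opull σ (inf_le_right : (V ⊓ V' ⊓ V'') ⊓ σ ⁻¹ᵁ U p ≤ σ ⁻¹ᵁ U p)) (hspec p _ le_rfl)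
    rw [ores_self, ← ht p, Cocycle.opull_mul, Cocycle.opull_mul, Cocycle.opull_ores,
      Cocycle.opull_ores, Cocycle.opull_ores, Cocycle.opull_ores] at h
    have ha : (V ⊓ V' ⊓ V'') ⊓ σ ⁻¹ᵁ U p ≤ σ ⁻¹ᵁ G.U p.1 :=
      inf_le_right.trans (σ.preimage_mono (la p))
    have hb : (V ⊓ V' ⊓ V'') ⊓ σ ⁻¹ᵁ U p ≤ σ ⁻¹ᵁ G'.U p.2.1 :=
      inf_le_right.trans (σ.preimage_mono (lb p))
    have hc : (V ⊓ V' ⊓ V'') ⊓ σ ⁻¹ᵁ U p ≤ σ ⁻¹ᵁ G''.U p.2.2 :=
      inf_le_right.trans (σ.preimage_mono (lc p))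
    have n1 := he p.1 p.2.1 _ ha hb
    have n2 := he' p.2.1 p.2.2 _ hb hc
    have n3 := he'' p.1 p.2.2 _ ha hc
    refine ((Cocycle.isUnit_opull σ (le_inf ha hc : _ ≤ σ ⁻¹ᵁ (G.U p.1 ⊓ G''.U p.2.2))
      (e''.isUnit _ _)).mul ((G''.isUnit_τ _).ores hc)).mul_right_cancel ?_
    rw [← mul_assoc, h, one_mul, mul_assoc, n2, n1, n3]
  have h := hspec (a, b, c) W (le_inf (le_inf ha hb) hc)
  rw [← ht (a, b, c), ht1, ores_one, ores_one, one_mul] at h
  exact h.symm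

section Glue

variable {I : Type u} (V : I → T.Opens) (G : ∀ i, Piece q σ (V i))
  (e : ∀ i j, PCmp q σ (G i) (G j))

/-- The patched cocycle. -/
def patch (hV : ∀ p : T, ∃ i, p ∈ V i) (hσ : σ ≫ q = 𝟙 T) (hr : Rigid q σ)
    (he : ∀ i j, (e i j).Normalised) : Gl X where
  ι := Σ i, (G i).ι
  U p := (G p.1).U p.2
  cover x := by
    obtain ⟨i, hi⟩ := hV (q x)
    obtain ⟨a, ha⟩ := (G i).cover x hi
    exact ⟨⟨i, a⟩, ha⟩
  g p p' := (e p.1 p'.1).h p.2 p'.2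
  isUnit p p' := (e p.1 p'.1).isUnit p.2 p'.2
  cocycle p p' p'' W hp hp' hp'' :=
    PCmp.Normalised.mul_eq hσ hr (he p.1 p'.1) (he p'.1 p''.1) (he p.1 p''.1) _ _ _ W hp hp' hp''

theorem cls_pull_patch (hV : ∀ p : T, ∃ i, p ∈ V i) (hσ : σ ≫ q = 𝟙 T) (hr : Rigid q σ)
    (he : ∀ i j, (e i j).Normalised) :
    PicC.pull σ (patch V G e hV hσ hr he).cls = 1 := by
  rw [← Gl.cls_pull, ← Gl.cls_triv]
  refine Gl.Cmp.cls_eq
    { h := fun p _ => ores (inf_le_left : σ ⁻¹ᵁ (G p.1).U p.2 ⊓ ⊤ ≤ _) ((G p.1).τ p.2)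
      isUnit := fun p _ => ((G p.1).isUnit_τ p.2).ores _
      left := fun p p' _ W hp hp' _ => ?_
      right := fun p _ _ W hp _ _ => ?_ }
  · rw [ores_ores, ores_ores]
    change ores _ (opull σ _ ((e p.1 p'.1).h p.2 p'.2)) * _ = _
    rw [Cocycle.ores_opull]
    exact he p.1 p'.1 p.2 p'.2 W hp hp'
  · change ores _ (ores _ ((G p.1).τ p.2)) * ores _ (1 : Γ(T, (⊤ : T.Opens) ⊓ ⊤)) = _
    rw [ores_one, mul_one]

end Glue

end FermatAgent.Jacobian
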