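import Mathlib.AlgebraicGeometry.Modules.Sheaf
import Mathlib.Topology.Sheaves.SheafCondition.UniqueGluing

/-!
# Sections of sheaves of modules on a scheme

Restriction of sections, gluing, morphisms given by compatible linear maps on sections, and the
semilinear map from sections of a module to sections of its pullback.
-/

set_option autoImplicit false

noncomputable section

universe u

open CategoryTheory TopologicalSpace AlgebraicGeometry Opposite

open scoped AlgebraicGeometry

namespace FermatAgent.Jacobian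

variable {X Y : Scheme.{u}}

/-- Restriction of a section of a module. -/
def mres (M : X.Modules) {U V : X.Opens} (h : V ≤ U) (s : Γ(M, U)) : Γ(M, V) :=
  M.presheaf.map (homOfLE h).op s

/-- Restriction of a regular function. -/
def ores {U V : X.Opens} (h : V ≤ U) (r : Γ(X, U)) : Γ(X, V) :=
  X.presheaf.map (homOfLE h).op r

section Restriction

variable (M : X.Modules) {U V W : X.Opens}

@[simp]
theorem mres_self (s : Γ(M, U)) : mres M le_rfl s = s := by
  simp [mres]

@[simp]
theorem mres_mres (h : W ≤ V) (h' : V ≤ U) (s : Γ(M, U)) :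
    mres M h (mres M h' s) = mres M (h.trans h') s := by
  rw [mres, mres, mres, ← CategoryTheory.comp_apply, ← Functor.map_comp]
  rfl

@[simp]
theorem mres_add (h : V ≤ U) (s t : Γ(M, U)) : mres M h (s + t) = mres M h s + mres M h t :=
  map_add _ _ _

@[simp]
theorem mres_zero (h : V ≤ U) : mres M h (0 : Γ(M, U)) = 0 := map_zero _

@[simp]
theorem mres_smul (h : V ≤ U) (r : Γ(X, U)) (s : Γ(M, U)) :
    mres M h (r • s) = ores h r • mres M h s :=
  Scheme.Modules.map_smul M (homOfLE h) r s

@[simp]
theorem ores_self (r : Γ(X, U)) : ores le_rfl r = r := by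
  simp [ores]

@[simp]
theorem ores_ores (h : W ≤ V) (h' : V ≤ U) (r : Γ(X, U)) :
    ores h (ores h' r) = ores (h.trans h') r := by
  rw [ores, ores, ores, ← CategoryTheory.comp_apply, ← Functor.map_comp]
  rfl

@[simp]
theorem ores_mul (h : V ≤ U) (r r' : Γ(X, U)) : ores h (r * r') = ores h r * ores h r' :=
  map_mul _ _ _

@[simp]
theorem ores_add (h : V ≤ U) (r r' : Γ(X, U)) : ores h (r + r') = ores h r + ores h r' :=
  map_add _ _ _

@[simp]
theorem ores_one (h : V ≤ U) : ores h (1 : Γ(X, U)) = 1 := map_one _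

theorem _root_.IsUnit.ores {r : Γ(X, U)} (hr : IsUnit r) (h : V ≤ U) :
    IsUnit (FermatAgent.Jacobian.ores h r) :=
  hr.map (X.presheaf.map (homOfLE h).op).hom

/-- Sections agreeing locally are equal. -/
theorem mres_ext {ι : Type*} (V : ι → X.Opens) (hV : ∀ i, V i ≤ U) (hcov : U ≤ iSup V)
    {s t : Γ(M, U)} (h : ∀ i, mres M (hV i) s = mres M (hV i) t) : s = t :=
  TopCat.Sheaf.eq_of_locally_eq' ⟨M.presheaf, M.isSheaf⟩ V U (fun i => homOfLE (hV i)) hcov s t h

/-- Compatible local sections glue. -/
theorem exists_glue {ι : Type*} (V : ι → X.Opens) (hV : ∀ i, V i ≤ U) (hcov : U ≤ iSup V)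
    (s : ∀ i, Γ(M, V i))
    (h : ∀ i j, mres M (inf_le_left : V i ⊓ V j ≤ V i) (s i) = mres M inf_le_right (s j)) :
    ∃ t : Γ(M, U), ∀ i, mres M (hV i) t = s i :=
  (TopCat.Sheaf.existsUnique_gluing' ⟨M.presheaf, M.isSheaf⟩ V U (fun i => homOfLE (hV i)) hcov s
    h).exists

end Restriction

/-- A morphism of modules from linear maps on sections compatible with restriction. -/
def homOfSections (M N : X.Modules) (f : ∀ U : X.Opens, Γ(M, U) →ₗ[Γ(X, U)] Γ(N, U))
    (hf : ∀ ⦃U V : X.Opens⦄ (h : V ≤ U) (s : Γ(M, U)), f V (mres M h s) = mres N h (f U s)) :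
    M ⟶ N :=
  ⟨PresheafOfModules.homMk
    { app := fun U => AddCommGrpCat.ofHom (f U.unop).toAddMonoidHom
      naturality := fun U V i => by
        ext s
        exact hf (leOfHom i.unop) s }
    (fun U r m => (f U.unop).map_smul r m)⟩

theorem app_mres {M N : X.Modules} (φ : M ⟶ N) {U V : X.Opens} (h : V ≤ U) (s : Γ(M, U)) :
    φ.app V (mres M h s) = mres N h (φ.app U s) :=
  ConcreteCategory.congr_hom (φ.mapPresheaf.naturality (homOfLE h).op) s

/-- The canonical map from sections of a module to sections of its pullback. -/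
def pullSec (f : X ⟶ Y) (M : Y.Modules) {U : Y.Opens} (s : Γ(M, U)) :
    Γ((Scheme.Modules.pullback f).obj M, f ⁻¹ᵁ U) :=
  ((Scheme.Modules.pullbackPushforwardAdjunction f).unit.app M).app U s

variable (f : X ⟶ Y) {M : Y.Modules}

/-- The adjoint of a morphism to a pushforward, on pulled back sections. -/
theorem homEquiv_symm_app_pullSec {N : X.Modules} (α : M ⟶ (Scheme.Modules.pushforward f).obj N)
    {U : Y.Opens} (s : Γ(M, U)) :
    (((Scheme.Modules.pullbackPushforwardAdjunction f).homEquiv M N).symm α).app (f ⁻¹ᵁ U)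
      (pullSec f M s) = α.app U s := by
  set β := ((Scheme.Modules.pullbackPushforwardAdjunction f).homEquiv M N).symm α with hβ
  have h : (Scheme.Modules.pullbackPushforwardAdjunction f).unit.app M ≫
      (Scheme.Modules.pushforward f).map β = α :=
    ((Scheme.Modules.pullbackPushforwardAdjunction f).homEquiv_unit M N β).symm.trans (Equiv.apply_symm_apply _ α)
  rw [← h]
  rfl

end FermatAgent.Jacobian
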